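import Fermat.Agent.Semistable.SeriesLemmas

/-!
# The derivation `θ = q d/dq` and logarithmic derivatives

The logarithmic derivative `θ f / f` turns products into sums, and `θ j` has nonzero reduction.
-/

set_option autoImplicit false

noncomputable section

open ModularCurve

namespace Fermat.Agent.RT.MazurP

section CommRing

variable {R : Type*} [CommRing R]

/-- Multiply the `k`-th coefficient by `k`. -/
def thetaFun (x : LaurentSeries R) : LaurentSeries R :=
  HahnSeries.mk (fun k => (k : R) * x.coeff k) <|
    x.isPWO_support.mono fun k hk => by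
      simp only [Function.mem_support, ne_eq] at hk ⊢
      exact fun h => hk (by rw [h, mul_zero])

theorem coeff_thetaFun (x : LaurentSeries R) (k : ℤ) :
    (thetaFun x).coeff k = (k : R) * x.coeff k := rfl

/-- The coefficients of a constant times a series are that constant times those of the series. -/
theorem coeff_C_mul (r : R) (x : LaurentSeries R) (k : ℤ) :
    (HahnSeries.C r * x).coeff k = r * x.coeff k := by
  rw [HahnSeries.C_apply, HahnSeries.coeff_single_zero_mul]

/-- The constants of the series ring are the constant series. -/
theorem algebraMap_eq_C (r : R) :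
    algebraMap R (LaurentSeries R) r = HahnSeries.C r := by
  rw [HahnSeries.algebraMap_apply', HahnSeries.C_apply]
  simp

theorem thetaFun_mul (x y : LaurentSeries R) :
    thetaFun (x * y) = x * thetaFun y + y * thetaFun x := by
  ext k
  rw [mul_comm y, HahnSeries.coeff_add, coeff_thetaFun, HahnSeries.coeff_mul,
    HahnSeries.coeff_mul_left' x.isPWO_support (fun n hn => ?_) (x := thetaFun x),
    HahnSeries.coeff_mul_right' y.isPWO_support (fun n hn => ?_) (y := thetaFun y),
    Finset.mul_sum, ← Finset.sum_add_distrib]
  · refine Finset.sum_congr rfl fun ij hij => ?_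
    have hk : ij.1 + ij.2 = k := (Finset.mem_antidiagonal.mp hij).2.2
    rw [coeff_thetaFun, coeff_thetaFun, ← hk, Int.cast_add]
    ring
  all_goals
    simp only [HahnSeries.mem_support, coeff_thetaFun, ne_eq] at hn ⊢
    exact fun h => hn (by rw [h, mul_zero])

variable (R) in
/-- `θ = q d/dq`. -/
def theta : Derivation R (LaurentSeries R) (LaurentSeries R) where
  toFun := thetaFun
  map_add' x y := by ext k; simp [coeff_thetaFun, mul_add]
  map_smul' r x := by
    ext k
    simp only [RingHom.id_apply, Algebra.smul_def, algebraMap_eq_C, coeff_C_mul, coeff_thetaFun,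
      HahnSeries.coeff_smul, Algebra.algebraMap_self, RingHom.id_apply]
    ring
  map_one_eq_zero' := by
    ext k
    rcases eq_or_ne k 0 with rfl | hk
    · simp [coeff_thetaFun]
    · simp [coeff_thetaFun, HahnSeries.coeff_one, hk]
  leibniz' x y := by
    simpa only [smul_eq_mul, LinearMap.coe_mk, AddHom.coe_mk] using thetaFun_mul x y

/-- `θ` multiplies the coefficient of `q ^ k` by `k`. -/
@[simp]
theorem coeff_theta (x : LaurentSeries R) (k : ℤ) :
    (theta R x).coeff k = (k : R) * x.coeff k := rfl

/-- `θ` satisfies the Leibniz rule. -/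
theorem theta_mul (x y : LaurentSeries R) :
    theta R (x * y) = x * theta R y + y * theta R x := thetaFun_mul x y

/-- `θ` kills constants. -/
theorem theta_C (r : R) : theta R (HahnSeries.C r : LaurentSeries R) = 0 := by
  ext k
  rcases eq_or_ne k 0 with rfl | hk
  · simp
  · simp [coeff_theta, hk]

/-- `θ` of `x(q^l)` is `l` times `(θ x)(q^l)`. -/
theorem theta_qExpand (l : ℕ) [NeZero l] (x : LaurentSeries R) :
    theta R (qExpand R l x) = HahnSeries.C (l : R) * qExpand R l (theta R x) := by
  ext k
  rw [coeff_C_mul, coeff_theta]
  by_cases hk : (l : ℤ) ∣ k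
  · obtain ⟨m, rfl⟩ := hk
    rw [qExpand_coeff_mul, qExpand_coeff_mul, coeff_theta]
    push_cast
    ring
  · rw [qExpand_coeff_of_not_dvd l _ hk, qExpand_coeff_of_not_dvd l _ hk, mul_zero, mul_zero]

/-- `θ` commutes with a change of coefficients. -/
theorem theta_coeffMap {S : Type*} [CommRing S] (φ : R →+* S) (x : LaurentSeries R) :
    theta S (coeffMap φ x) = coeffMap φ (theta R x) := by
  ext k
  rw [coeff_theta, coeffMap_coeff, coeffMap_coeff, coeff_theta,
    map_mul, map_intCast]

end CommRing

variable {K : Type*} [Field K]

/-- The logarithmic derivative. -/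
def dlog (x : LaurentSeries K) : LaurentSeries K := theta K x / x

/-- The logarithmic derivative of zero is zero, by the junk value of division. -/
theorem dlog_zero : dlog (0 : LaurentSeries K) = 0 := by
  rw [dlog, map_zero, zero_div]

/-- The logarithmic derivative of a product is the sum of those of the factors. -/
theorem dlog_mul {x y : LaurentSeries K} (hx : x ≠ 0) (hy : y ≠ 0) :
    dlog (x * y) = dlog x + dlog y := by
  rw [dlog, dlog, dlog, theta_mul]
  field_simp
  ring

/-- The logarithmic derivative of a constant is zero. -/
theorem dlog_C (r : K) : dlog (HahnSeries.C r : LaurentSeries K) = 0 := by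
  rw [dlog, theta_C, zero_div]

/-- The logarithmic derivative of `x(q^l)` is `l` times that of `x` at `q^l`. -/
theorem dlog_qExpand (l : ℕ) [NeZero l] (x : LaurentSeries K) :
    dlog (qExpand K l x) = HahnSeries.C (l : K) * qExpand K l (dlog x) := by
  rw [dlog, dlog, theta_qExpand, map_div₀, mul_div_assoc]

/-- `θ j` is nonzero over every field. -/
theorem red_theta_jqModC_ne_zero : theta K (jqModC K) ≠ 0 := fun h => by
  have h1 := congrArg (fun y : LaurentSeries K => y.coeff (-1)) h
  simp [ModularCurve.coeff_jqModC_neg_one] at h1

end Fermat.Agent.RT.MazurP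

end
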