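import Fermat.Agent.RT.MazurP.Basic
import Fermat.Agent.Semistable.Pairs

/-!
# Orders of reductions of functions vanishing on one component

A vertical unit bounds, at the places of level `M` over the residue field, the orders of the two
reductions of a function with poles at the cusps only, in terms of its order along each component.

Main result: `bounds`.
-/

set_option autoImplicit false

noncomputable section

namespace Fermat.Agent.RT.MazurP

open ModularCurve AlgebraicCurve Polynomial Fermat.Agent.Semistable Fermat.Agent.Arith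

attribute [-instance] IsLocalRing.ResidueField.algebraOfIsIntegral IsScalarTower.of_algHom
  RingHom.Finite.instFinite

variable {A : ValuationSubring QBar} {p M : ℕ} [Fact p.Prime] [NeZero M] {hpM : ¬ p ∣ M}

/-! ## Vertical units -/

variable (A) in
/-- A rational function `U` of level `p M` with `U` and `U⁻¹` integral over the polynomials in `j`,
reducing to `ub` on the first component and, divided by `p ^ 12`, to `ub⁻¹` on the second, `ub`
integral away from the cusps and of order `(p - 1) ord j` at each of them. -/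
structure VUnit (hpM : ¬ p ∣ M) where
  /-- The function. -/
  U : FB (p * M)
  U_ne : U ≠ 0
  gal : ∀ σ : GQ, galF (p * M) σ U = U
  int : IsIntegral (Algebra.adjoin QBar {upF M p (jM M)}) U
  int_inv : IsIntegral (Algebra.adjoin QBar {upF M p (jM M)}) U⁻¹
  /-- Its reduction. -/
  ub : KM A M
  ub_ne : ub ≠ 0
  mem₀ : iota2 M p hpM 0 U ∈ locS A
  red₀ : redL A ⟨_, mem₀⟩ = ub
  mem₁ : algebraMap QBar LSer ((p : QBar) ^ 12)⁻¹ * iota2 M p hpM 1 U ∈ locS A
  red₁ : redL A ⟨_, mem₁⟩ = (ub : LaurentSeries (Res A))⁻¹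
  ub_int : ∀ P : Place (Res A) (KM A M), 0 ≤ P.ord (jK A M) → 0 ≤ P.ord ub
  ub_cusp : ∀ P : Place (Res A) (KM A M), P.ord (jK A M) < 0 →
    P.ord ub = ((p : ℤ) - 1) * P.ord (jK A M)

/-- The order of the reduced unit away from the cusps. -/
def VUnit.oW (V : VUnit A hpM) (P : Place (Res A) (KM A M)) : ℤ :=
  if 0 ≤ P.ord (jK A M) then P.ord V.ub else 0

theorem VUnit.oW_nonneg (V : VUnit A hpM) (P : Place (Res A) (KM A M)) : 0 ≤ V.oW P := by
  rw [VUnit.oW]
  split_ifs with h
  · exact V.ub_int P h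
  · exact le_rfl

/-- `redL` of a product. -/
theorem redL_mul' {x y : LSer} (hx : x ∈ locS A) (hy : y ∈ locS A) :
    redL A ⟨x * y, mul_mem hx hy⟩ = redL A ⟨x, hx⟩ * redL A ⟨y, hy⟩ :=
  map_mul (redL A) (⟨x, hx⟩ : locS A) ⟨y, hy⟩

/-- `redL` of a power. -/
theorem redL_pow' {x : LSer} (hx : x ∈ locS A) (n : ℕ) :
    redL A ⟨x ^ n, pow_mem hx n⟩ = redL A ⟨x, hx⟩ ^ n := by
  induction n with
  | zero => exact (redL_congr _ (one_mem _) (pow_zero x)).trans (map_one (redL A))
  | succ n ih =>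
    rw [pow_succ (redL A ⟨x, hx⟩) n, ← ih, ← redL_mul']
    exact redL_congr _ _ (pow_succ x n)

/-- A number of valuation one has nonzero residue. -/
theorem residue_unit_ne_zero {c : QBar} (hc : A.valuation c = 1) :
    ∃ h : c ∈ A, IsLocalRing.residue A ⟨c, h⟩ ≠ 0 := by
  refine ⟨(A.valuation_le_one_iff c).mp hc.le, fun h0 => ?_⟩
  have := (residue_eq_zero_iff _).mp h0
  rw [ValuationSubring.mem_nonunits_iff, hc] at this
  exact lt_irrefl _ this

omit [Fact (Nat.Prime p)] in
/-- A power of the uniformiser and a power of `p` with the same valuation. -/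
theorem CoefField.valuation_ratio_eq_one (C : CoefField A p) (k : ℕ) :
    A.valuation ((C.π ^ k) ^ (12 * C.e) * (((p : QBar) ^ 12)⁻¹) ^ k) = 1 := by
  have h0 : A.valuation C.π ≠ 0 := (Valuation.ne_zero_iff _).mpr C.π_ne_zero
  rw [map_mul, map_pow, map_pow, map_pow, map_inv₀, map_pow, C.val_p, ← pow_mul, ← pow_mul,
    inv_pow, ← pow_mul, show k * (12 * C.e) = C.e * 12 * k by ring]
  exact mul_inv_cancel₀ (pow_ne_zero _ h0)

theorem unscale_pow {F : Type*} [Field F] (α β Z W : F) (N k : ℕ) (hα : α ≠ 0) (hβ : β ≠ 0) :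
    Z ^ N * W⁻¹ ^ k = α ^ N * β ^ k * ((α⁻¹ * Z) ^ N * (β * W)⁻¹ ^ k) := by
  simp only [mul_pow, mul_inv, inv_pow]
  field_simp

variable [CharP (Res A) p] [FF.IsFunctionField (Res A) (KM A M)]

/-! ## The bounds -/

omit [FF.IsFunctionField (Res A) ↥(KM A M)] in
/-- Both reductions of an integral element are regular away from the cusps. -/
theorem red2_ord_nonneg (hA : A.LiesOverPrime p) (hM : (M : Res A) ≠ 0)
    {x : loc2 A (iota2 M p hpM)}
    (hx : IsIntegral (Algebra.adjoin QBar {upF M p (jM M)}) (x : FB (p * M))) {s : Fin 2}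
    {a : KM A M} (ha : red2 A (iota2 M p hpM) x s = a) (P : Place (Res A) (KM A M))
    (hP : 0 ≤ P.ord (jK A M)) : 0 ≤ P.ord a := by
  obtain ⟨R, hR, hrel⟩ := red2_integral (A := A) M p hpM hA hM (isParam_jM (A := A) M p)
    (x := x) hx s
  have hpow : red2 A (iota2 M p hpM) (upParam M hpM (⟨jM M, jM_mem M⟩ : loc2 A (iota1 M))) s =
      jqModC (Res A) ^ sideDeg p s := by
    rw [red2_upF, red1_jM]
    fin_cases s
    · exact (pow_one _).symm
    · exact (pow_eq_qExpand_gen_one p).symm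
  rw [hpow, ha] at hrel
  have hu : jK A M ^ sideDeg p s ∈ FF.ordGe P 0 := by
    simpa using FF.pow_mem_ordGe P (FF.mem_ordGe_of_le P hP) (sideDeg p s)
  refine FF.ord_nonneg P ((FF.mem_ordGe_zero P).mp (mem_ordGe_zero_of_rel P hu hR ?_))
  refine (KM A M).val.injective ?_
  rw [map_zero]
  refine Eq.trans ?_ hrel
  show (KM A M).val.toRingHom _ = _
  rw [hom_eval₂]
  congr 1
  exact RingHom.ext fun q => (aeval_algHom_apply (KM A M).val (jK A M ^ sideDeg p s) q).symm

variable (V : VUnit A hpM) (C : CoefField A p)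

omit [FF.IsFunctionField (Res A) ↥(KM A M)] in
/-- The auxiliary function, with poles only at the cusps, divisible by `p` on the first
component. -/
theorem exists_cusp_aux :
    ∃ w : loc2 A (iota2 M p hpM), (w : FB (p * M)) ∈ HN M p p ∧
      (∃ y ∈ locS A, iota2 M p hpM 0 (w : FB (p * M)) = algebraMap QBar LSer (p : QBar) * y) ∧
      red2 A (iota2 M p hpM) w 1 = jqModC (Res A) - jqModC (Res A) ^ (p * p) := by
  set tj : loc2 A (iota1 M) := ⟨jM M, jM_mem M⟩ with htj
  set d : loc2 A (iota2 M p hpM) := ⟨_, downF_mem_loc2 M p hpM tj.2⟩ with hd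
  set u : loc2 A (iota2 M p hpM) := ⟨_, upF_mem_loc2 M p hpM tj.2⟩ with hu
  have hj1 : jM M ∈ HM M 1 := by
    rw [RedTorsion.mem_polesSpace]
    intro v
    refine FF.ordGe_anti v ?_ (RedTorsion.poles_mem_ordGe v (jM M))
    rw [Nat.cast_one, one_mul]
  refine ⟨d - u ^ p, ?_, ?_, ?_⟩
  · show downF M p hpM (jM M) - upF M p (jM M) ^ p ∈ _
    refine sub_mem ?_ ?_
    · simpa using downF_mem_HN M p hpM hj1
    · have : ∀ i : ℕ, upF M p (jM M) ^ i ∈ HN M p i := fun i => by
        induction i with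
        | zero => rw [pow_zero]; exact one_mem_polesSpace _ _
        | succ i ih => rw [pow_succ]; exact mul_mem_polesSpace ih (upF_mem_HN M p hj1)
      exact this p
  · -- the first series has integral coefficients divisible by `p`
    obtain ⟨y, hy⟩ : ∃ y : LaurentSeries ℤ,
        qExpand ℤ p (jqModC ℤ) - jqModC ℤ ^ p = (p : LaurentSeries ℤ) * y := by
      have hz : coeffMap (Int.castRingHom (ZMod p)) (qExpand ℤ p (jqModC ℤ)
          - jqModC ℤ ^ p) = 0 := by
        rw [map_sub, map_pow, coeffMap_qExpand, coeffMap_jqModC, sub_eq_zero]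
        refine (pow_char_eq_qExpand_of_fixed p fun n => ?_).symm
        rw [ZMod.pow_card]
      refine ⟨(qExpand ℤ p (jqModC ℤ) - jqModC ℤ ^ p).map
        (⟨fun a : ℤ => a / p, Int.zero_ediv _⟩ : ZeroHom ℤ ℤ), ?_⟩
      · refine HahnSeries.ext (funext fun n => ?_)
        rw [← map_natCast (HahnSeries.C : ℤ →+* LaurentSeries ℤ), HahnSeries.C_mul_eq_smul,
          HahnSeries.coeff_smul, HahnSeries.map_coeff, smul_eq_mul, ZeroHom.coe_mk,
          Int.mul_ediv_cancel']
        have h := congrArg (fun s : LaurentSeries (ZMod p) => s.coeff n) hz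
        rw [← ZMod.intCast_zmod_eq_zero_iff_dvd]
        simpa only [coeffMap_coeff, HahnSeries.coeff_zero, eq_intCast] using h
    refine ⟨coeffMap (Int.castRingHom QBar) y, intS_le_locS (coeffMap_intCast_mem_intS y), ?_⟩
    show ((downF M p hpM (jM M) - upF M p (jM M) ^ p : FB (p * M)) : LSer) = _
    push_cast
    rw [coe_downF, coe_upF, coe_jM]
    have h := congrArg (coeffMap (Int.castRingHom QBar)) hy
    rwa [map_sub, map_pow, map_mul, map_natCast, coeffMap_qExpand, coeffMap_jqModC] at h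
  · rw [map_sub, map_pow, hd, hu, red2_downF, red2_upF, Pi.sub_apply, Pi.pow_apply]
    simp only [Matrix.cons_val_one, Matrix.cons_val_fin_one, htj, red1_jM]
    rw [← pow_eq_qExpand_gen_one p, ← pow_mul]

/-- The bound on the second component at a cusp. -/
private theorem bound_one_at_cusp (hA : A.LiesOverPrime p) (hM : (M : Res A) ≠ 0) {n k : ℕ}
    {z : FB (p * M)} (hz : z ∈ HN M p n) (h0 : iota2 M p hpM 0 z ∈ locS A)
    (h1 : algebraMap QBar LSer (C.π ^ k)⁻¹ * iota2 M p hpM 1 z ∈ locS A)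
    {b : KM A M} (hb : redL A ⟨_, h1⟩ = b) (hb0 : b ≠ 0) {P : Place (Res A) (KM A M)}
    (hneg : P.ord (jK A M) < 0) :
    -(12 * (C.e : ℤ) * (p * n * FF.poles (Res A) (jK A M) P)) ≤ 12 * C.e * P.ord b := by
  have hp : p.Prime := Fact.out
  have hpole : FF.poles (Res A) (jK A M) P = -P.ord (jK A M) := by
    rw [FF.poles_apply, max_eq_right (by omega)]
  obtain ⟨w, hw, ⟨y, hy, hwy⟩, hw1⟩ := exists_cusp_aux (A := A) (hpM := hpM) (M := M)
  -- `z' = π ^ (-k) * z * w ^ k` is integral on both components, as `p ^ k / π ^ k` is.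
  set z' : FB (p * M) := algebraMap QBar (FB (p * M)) (C.π ^ k)⁻¹ * (z * (w : FB (p * M)) ^ k)
    with hz'
  have hdiv : (p : QBar) ^ k / C.π ^ k ∈ A := by
    refine (A.valuation_le_one_iff _).mp ?_
    rw [map_div₀, map_pow, map_pow, C.val_p, ← pow_mul]
    refine (div_le_one₀ (pow_pos (zero_lt_iff.mpr
      ((Valuation.ne_zero_iff _).mpr C.π_ne_zero)) _)).mpr ?_
    exact pow_le_pow_right_of_le_one' ((A.valuation_le_one_iff _).mpr
      (mem_of_mem_nonunits C.π_nonunit)) (Nat.le_mul_of_pos_left k C.e_pos)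
  have hz0 : iota2 M p hpM 0 z' ∈ locS A := by
    have h := mul_mem (mul_mem (algebraMap_mem_locS hdiv) h0) (pow_mem hy k)
    convert h using 1
    rw [hz', map_mul, map_mul, map_pow, AlgHom.commutes, hwy, map_div₀, map_pow,
      map_inv₀, mul_pow, div_eq_mul_inv]
    ring
  have hz1 : iota2 M p hpM 1 z' = algebraMap QBar LSer (C.π ^ k)⁻¹ * iota2 M p hpM 1 z *
      iota2 M p hpM 1 (w : FB (p * M)) ^ k := by
    rw [hz', map_mul, map_mul, map_pow, AlgHom.commutes, mul_assoc]
  set x' : loc2 A (iota2 M p hpM) := ⟨z', (mem_loc2 _).mpr fun s => by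
    fin_cases s
    · exact hz0
    · show iota2 M p hpM 1 z' ∈ locS A
      rw [hz1]; exact mul_mem h1 (pow_mem ((mem_loc2 _).mp w.2 1) k)⟩ with hx'
  have hpw : ∀ i : ℕ, (w : FB (p * M)) ^ i ∈ HN M p (p * i) := fun i => by
    induction i with
    | zero => rw [pow_zero]; exact one_mem_polesSpace _ _
    | succ i ih =>
      rw [pow_succ, Nat.mul_succ]
      exact mul_mem_polesSpace ih hw
  have hx'mem : z' ∈ HN M p (n + p * k) := by
    rw [hz', ← Algebra.smul_def]
    exact Submodule.smul_mem _ _ (mul_mem_polesSpace hz (hpw k))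
  have hPk' := red2_mem_Pk (A := A) M p hpM hA hM (x := x') (n := n + p * k) hx'mem
  rw [mem_Pk] at hPk'
  -- Its second reduction is `b * (j - j ^ (p * p)) ^ k`, with poles bounded by `n + p * k`.
  have e : red2 A (iota2 M p hpM) x' 1 =
      ((b * (jK A M - jK A M ^ (p * p)) ^ k : KM A M) : LaurentSeries (Res A)) := by
    rw [red2_apply, redL_congr _ (mul_mem h1 (pow_mem ((mem_loc2 _).mp w.2 1) k)) hz1]
    rw [redL_mul' h1 (pow_mem ((mem_loc2 _).mp w.2 1) k), redL_pow' ((mem_loc2 _).mp w.2 1), hb,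
      ← red2_apply, hw1]
    push_cast
    rw [coe_jK]
  rw [e, coe_mem_HkS, RedTorsion.mem_polesSpace] at hPk'
  have hj0 : jK A M ≠ 0 := fun h => by simp [h] at hneg
  have hpp : (1 : ℕ) < p * p := Nat.one_lt_mul_iff.mpr ⟨hp.pos, hp.pos, Or.inl hp.one_lt⟩
  -- At `P` the last factor has order `p * p * ord j`.
  have hordd : P.ord (jK A M - jK A M ^ (p * p)) = ((p * p : ℕ) : ℤ) * P.ord (jK A M) := by
    have hlt : P.ord (jK A M ^ (p * p)) < P.ord (jK A M) := by
      rw [FF.ord_pow P]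
      exact mul_lt_of_one_lt_left hneg (by exact_mod_cast hpp)
    rw [sub_eq_neg_add, ← FF.ord_pow P, ← FF.ord_neg P (jK A M ^ (p * p))]
    rw [← FF.ord_neg P (jK A M ^ (p * p))] at hlt
    exact (FF.ord_add_eq_left P (neg_ne_zero.mpr (pow_ne_zero _ hj0)) (Or.inr hlt)).2
  have hd0 : jK A M - jK A M ^ (p * p) ≠ 0 := fun h => by
    rw [h, P.ord_zero] at hordd
    exact mul_ne_zero (by exact_mod_cast (by omega : p * p ≠ 0)) hneg.ne hordd.symm
  have h := FF.le_ord_of_mem_ordGe P (mul_ne_zero hb0 (pow_ne_zero _ hd0)) (hPk'.2 P)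
  rw [hpole, P.ord_mul hb0 (pow_ne_zero _ hd0), FF.ord_pow P, hordd] at h
  push_cast at h
  have he : (0 : ℤ) ≤ 12 * C.e := by positivity
  rw [hpole]
  linarith [mul_le_mul_of_nonneg_left h he]

/-- The bounds away from the cusps. -/
private theorem bounds_of_ord_nonneg (hA : A.LiesOverPrime p) (hM : (M : Res A) ≠ 0) {n k : ℕ}
    {z : FB (p * M)} (hz : z ∈ HN M p n) (h0 : iota2 M p hpM 0 z ∈ locS A)
    (h1 : algebraMap QBar LSer (C.π ^ k)⁻¹ * iota2 M p hpM 1 z ∈ locS A)
    {a b : KM A M} (ha : redL A ⟨_, h0⟩ = a) (hb : redL A ⟨_, h1⟩ = b)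
    {P : Place (Res A) (KM A M)} (hP : 0 ≤ P.ord (jK A M)) :
    (a ≠ 0 → (k : ℤ) * V.oW P - 12 * C.e * (n * FF.poles (Res A) (jK A M) P) ≤
        12 * C.e * P.ord a) ∧
      (b ≠ 0 → -((k : ℤ) * V.oW P) - 12 * C.e * (p * n * FF.poles (Res A) (jK A M) P) ≤
        12 * C.e * P.ord b) := by
  have hp : p.Prime := Fact.out
  have hπA : C.π ^ k ∈ A := pow_mem (mem_of_mem_nonunits C.π_nonunit) k
  have h1' : iota2 M p hpM 1 z ∈ locS A := by
    have h := mul_mem (algebraMap_mem_locS hπA) h1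
    rwa [← mul_assoc, ← map_mul, mul_inv_cancel₀ (pow_ne_zero k C.π_ne_zero), map_one,
      one_mul] at h
  have hpole : FF.poles (Res A) (jK A M) P = 0 := by
    rw [FF.poles_apply, max_eq_left (by omega)]
  have hoW : V.oW P = P.ord V.ub := if_pos hP
  rw [hpole, mul_zero, mul_zero, sub_zero, mul_zero, mul_zero, sub_zero, hoW]
  -- Away from the cusps use `H = z ^ (12 e) / U ^ k`, which is integral over the polynomials in
  -- `j`. It reduces to `a ^ (12 e) / ub ^ k` on the first component and, as `π ^ e` and `p` have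
  -- the same valuation, to a constant times `b ^ (12 e) * ub ^ k` on the second; both reductions
  -- are regular at `P`.
  obtain ⟨hU0, hU0r⟩ := inv_mem_locS V.mem₀ (by
    rw [V.red₀]; exact fun h => V.ub_ne (Subtype.ext h))
  obtain ⟨hU1, hU1r⟩ := inv_mem_locS V.mem₁ (by
    rw [V.red₁]; exact inv_ne_zero fun h => V.ub_ne (Subtype.ext h))
  set H : FB (p * M) := z ^ (12 * C.e) * V.U⁻¹ ^ k with hH
  set c : QBar := (C.π ^ k) ^ (12 * C.e) * (((p : QBar) ^ 12)⁻¹) ^ k with hc
  obtain ⟨hcA, hc0⟩ := residue_unit_ne_zero (A := A) (c := c) (C.valuation_ratio_eq_one k)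
  have hH0 : iota2 M p hpM 0 H = iota2 M p hpM 0 z ^ (12 * C.e) *
      (iota2 M p hpM 0 V.U)⁻¹ ^ k := by
    rw [hH, map_mul, map_pow, map_pow, map_inv₀]
  have hH1 : iota2 M p hpM 1 H = algebraMap QBar LSer c *
      ((algebraMap QBar LSer (C.π ^ k)⁻¹ * iota2 M p hpM 1 z) ^ (12 * C.e) *
        (algebraMap QBar LSer ((p : QBar) ^ 12)⁻¹ * iota2 M p hpM 1 V.U)⁻¹ ^ k) := by
    have hπ : algebraMap QBar LSer (C.π ^ k) ≠ 0 :=
      (_root_.map_ne_zero _).mpr (pow_ne_zero _ C.π_ne_zero)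
    have hp12 : algebraMap QBar LSer ((p : QBar) ^ 12)⁻¹ ≠ 0 :=
      (_root_.map_ne_zero _).mpr (inv_ne_zero (pow_ne_zero _ (Nat.cast_ne_zero.mpr hp.ne_zero)))
    rw [hH, map_mul, map_pow, map_pow, map_inv₀, hc, map_mul, map_pow, map_pow]
    refine (unscale_pow _ _ _ _ _ _ hπ hp12).trans ?_
    simp only [map_pow, map_inv₀]
  have hm0 : iota2 M p hpM 0 H ∈ locS A := by
    rw [hH0]; exact mul_mem (pow_mem h0 _) (pow_mem hU0 _)
  have hm1 : iota2 M p hpM 1 H ∈ locS A := by
    rw [hH1]; exact mul_mem (algebraMap_mem_locS hcA) (mul_mem (pow_mem h1 _) (pow_mem hU1 _))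
  set Hl : loc2 A (iota2 M p hpM) := ⟨H, (mem_loc2 _).mpr fun s => by
    fin_cases s
    · exact hm0
    · exact hm1⟩ with hHl
  have hint : IsIntegral (Algebra.adjoin QBar {upF M p (jM M)}) (Hl : FB (p * M)) :=
    ((isIntegral_of_mem_poles hz).pow _).mul (V.int_inv.pow _)
  have e0 : red2 A (iota2 M p hpM) Hl 0 =
      ((a ^ (12 * C.e) * V.ub⁻¹ ^ k : KM A M) : LaurentSeries (Res A)) := by
    rw [red2_apply, redL_congr _ (mul_mem (pow_mem h0 _) (pow_mem hU0 _)) hH0]
    rw [redL_mul' (pow_mem h0 _) (pow_mem hU0 _), redL_pow' h0, redL_pow' hU0, ha, hU0r, V.red₀]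
    push_cast
    rfl
  set c' : KM A M := algebraMap (Res A) (KM A M) (IsLocalRing.residue A ⟨c, hcA⟩) with hc'
  have e1 : red2 A (iota2 M p hpM) Hl 1 =
      ((c' * (b ^ (12 * C.e) * V.ub ^ k) : KM A M) : LaurentSeries (Res A)) := by
    rw [red2_apply, redL_congr _
      (mul_mem (algebraMap_mem_locS hcA) (mul_mem (pow_mem h1 _) (pow_mem hU1 _))) hH1]
    rw [redL_mul' (algebraMap_mem_locS hcA) (mul_mem (pow_mem h1 _) (pow_mem hU1 _)),
      redL_mul' (pow_mem h1 _) (pow_mem hU1 _), redL_pow' h1, redL_pow' hU1,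
      redL_algebraMap hcA, hb, hU1r, V.red₁, inv_inv]
    push_cast
    rfl
  have hc'0 : c' ≠ 0 := (_root_.map_ne_zero _).mpr hc0
  refine ⟨fun ha0 => ?_, fun hb0 => ?_⟩
  · have h := red2_ord_nonneg hA hM hint e0 P hP
    rw [P.ord_mul (pow_ne_zero _ ha0) (pow_ne_zero _ (inv_ne_zero V.ub_ne)), FF.ord_pow P,
      FF.ord_pow P, P.ord_inv] at h
    push_cast at h
    linarith
  · have h := red2_ord_nonneg hA hM hint e1 P hP
    rw [P.ord_mul hc'0 (mul_ne_zero (pow_ne_zero _ hb0) (pow_ne_zero _ V.ub_ne)),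
      P.ord_mul (pow_ne_zero _ hb0) (pow_ne_zero _ V.ub_ne), FF.ord_pow P, FF.ord_pow P, hc',
      FF.ord_algebraMap, zero_add] at h
    push_cast at h
    linarith

/-- **The bounds**: for `z` with poles at most `n` times the cusps, divisible by `π ^ k` on the
second component, the orders of the two reductions are bounded below by the order of the reduced
unit and the cusps. -/
theorem bounds (hA : A.LiesOverPrime p) (hM : (M : Res A) ≠ 0) {n k : ℕ} {z : FB (p * M)}
    (hz : z ∈ HN M p n) (h0 : iota2 M p hpM 0 z ∈ locS A)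
    (h1 : algebraMap QBar LSer (C.π ^ k)⁻¹ * iota2 M p hpM 1 z ∈ locS A)
    {a b : KM A M} (ha : redL A ⟨_, h0⟩ = a) (hb : redL A ⟨_, h1⟩ = b)
    (P : Place (Res A) (KM A M)) :
    (a ≠ 0 → (k : ℤ) * V.oW P - 12 * C.e * (n * FF.poles (Res A) (jK A M) P) ≤
        12 * C.e * P.ord a) ∧
      (b ≠ 0 → -((k : ℤ) * V.oW P) - 12 * C.e * (p * n * FF.poles (Res A) (jK A M) P) ≤
        12 * C.e * P.ord b) := by
  have hp : p.Prime := Fact.out
  have hπA : C.π ^ k ∈ A := pow_mem (mem_of_mem_nonunits C.π_nonunit) k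
  have h1' : iota2 M p hpM 1 z ∈ locS A := by
    have h := mul_mem (algebraMap_mem_locS hπA) h1
    rwa [← mul_assoc, ← map_mul, mul_inv_cancel₀ (pow_ne_zero k C.π_ne_zero), map_one,
      one_mul] at h
  set x : loc2 A (iota2 M p hpM) := ⟨z, (mem_loc2 _).mpr fun s => by
    fin_cases s
    · exact h0
    · exact h1'⟩ with hx
  by_cases hP : 0 ≤ P.ord (jK A M)
  · exact bounds_of_ord_nonneg V C hA hM hz h0 h1 ha hb hP
  · -- At a cusp the first bound is the bound on the poles, the second is `bound_one_at_cusp`.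
    have hneg : P.ord (jK A M) < 0 := not_le.mp hP
    have hpole : FF.poles (Res A) (jK A M) P = -P.ord (jK A M) := by
      rw [FF.poles_apply, max_eq_right (by omega)]
    have hoW : V.oW P = 0 := if_neg hP
    rw [hpole, hoW, mul_zero, neg_zero, zero_sub]
    have hPk := red2_mem_Pk (A := A) M p hpM hA hM (x := x) (n := n) hz
    rw [mem_Pk] at hPk
    refine ⟨fun ha0 => ?_, fun hb0 => ?_⟩
    · have e : red2 A (iota2 M p hpM) x 0 = a := by rw [red2_apply]; exact ha
      rw [e, coe_mem_HkS, RedTorsion.mem_polesSpace] at hPk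
      have h := FF.le_ord_of_mem_ordGe P ha0 (hPk.1 P)
      rw [hpole] at h
      have he : (0 : ℤ) ≤ 12 * C.e := by positivity
      linarith [mul_le_mul_of_nonneg_left h he]
    · have := bound_one_at_cusp C hA hM hz h0 h1 hb hb0 hneg
      rw [hpole] at this
      linarith

end Fermat.Agent.RT.MazurP

end
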