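import Fermat.Agent.RT.MazurP.Basic
import Fermat.Agent.EC.Multiplicative.Galois
import Fermat.Agent.EC.Reduction.GoodPrime
import Mathlib.RingTheory.RootsOfUnity.Lemmas

/-!
# Fields of degree `p (p - 1)` over the inertia field with lower jump one

If some integral element of a Galois extension of degree `p (p - 1)` of the inertia field,
containing the `p`-th roots of unity, is moved by the wild generator `σ` exactly to order `ζ - 1`,
and a tame generator conjugates `σ` to `σ ^ g`, then the lower jump is one.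

Main result: `exists_wild`.
-/

set_option autoImplicit false

noncomputable section

namespace Fermat.Agent.RT.MazurP

open Fermat.Agent.Arith Fermat.Agent.EC.Reduction

variable {A : ValuationSubring QBar} {p : ℕ}

/-! ## Inertia and valuations -/

/-- Inertia preserves the valuation. -/
theorem valuation_inertia {τ : GQ} (hτ : τ ∈ A.inertiaSubgroupIn ℚ) (x : QBar) :
    A.valuation (τ x) = A.valuation x :=
  EC.Multiplicative.valuation_map_eq (res_inertia hτ).1 x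

/-- Inertia moves an integral element by an element of valuation less than one. -/
theorem valuation_inertia_sub_lt {τ : GQ} (hτ : τ ∈ A.inertiaSubgroupIn ℚ) {x : QBar} (hx : x ∈ A) :
    A.valuation (τ x - x) < 1 :=
  A.mem_nonunits_iff.mp ((mem_inertia_iff_forall_mem.mp hτ).2 x hx)

/-- Inertia fixes the residue of an integral element. -/
theorem res_inertia_map {τ : GQ} (hτ : τ ∈ A.inertiaSubgroupIn ℚ) {x : QBar} (hx : x ∈ A) :
    τ x ∈ A ∧ res A (τ x) = res A x :=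
  ⟨map_mem_of_mem_decomposition (res_inertia hτ).1 hx, (res_inertia hτ).2 x hx⟩

/-- An element of valuation one has nonzero residue. -/
theorem res_ne_zero_of_valuation_eq_one {x : QBar} (hx : A.valuation x = 1) :
    x ∈ A ∧ res A x ≠ 0 := by
  have hxA : x ∈ A := (A.valuation_le_one_iff x).mp hx.le
  refine ⟨hxA, fun h => ?_⟩
  have := A.mem_nonunits_iff.mp ((res_eq_zero_iff hxA).mp h)
  rw [hx] at this
  exact lt_irrefl _ this

/-- An element fixed by inertia has the valuation of a power of `p`. -/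
theorem exists_zpow_of_inertiaFixed (hA : A.LiesOverPrime p) (hp : p.Prime) {x : QBar} (hx : x ≠ 0)
    (hfix : ∀ τ ∈ A.inertiaSubgroupIn ℚ, τ x = x) :
    ∃ k : ℤ, A.valuation x = A.valuation (p : QBar) ^ k := by
  obtain ⟨k, hk, hku⟩ := Mazur.exists_zpow_mul_unit hA hp hx hfix
  have hpv : A.valuation (p : QBar) ≠ 0 :=
    (Valuation.ne_zero_iff _).mpr (Nat.cast_ne_zero.mpr hp.ne_zero)
  have h1 : A.valuation ((p : QBar) ^ (-k) * x) = 1 :=
    le_antisymm ((A.valuation_le_one_iff _).mpr hk)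
      (not_lt.mp fun h => hku (A.mem_nonunits_iff.mpr h))
  refine ⟨k, ?_⟩
  rw [map_mul, map_zpow₀, zpow_neg] at h1
  exact (inv_mul_eq_one₀ (zpow_ne_zero k hpv)).mp h1 |>.symm

/-- An element fixed by a subgroup which `g` normalises is moved by `g` to one fixed by it. -/
private theorem fixed_of_normalizes {H : Subgroup GQ} {g : GQ} (hnorm : ∀ h ∈ H, g⁻¹ * h * g ∈ H)
    {x : QBar} (hx : ∀ h ∈ H, h x = x) : ∀ h ∈ H, h (g x) = g x := fun h hh => by
  have e := hx _ (hnorm h hh)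
  rw [AlgEquiv.mul_apply, AlgEquiv.mul_apply] at e
  calc h (g x) = g (g⁻¹ (h (g x))) := by
        rw [← AlgEquiv.mul_apply g g⁻¹, mul_inv_cancel, AlgEquiv.one_apply]
    _ = g x := congrArg g e

/-- The product over the powers of `g` of an element fixed by a subgroup which `g` normalises and
which contains `g ^ n` is fixed by that subgroup and by `g`. -/
theorem fixed_prod_pow {H : Subgroup GQ} {g : GQ} {n : ℕ}
    (hnorm : ∀ h ∈ H, g⁻¹ * h * g ∈ H) (hgn : g ^ n ∈ H) {x : QBar} (hx : ∀ h ∈ H, h x = x) :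
    (∀ h ∈ H, h (∏ i ∈ Finset.range n, (g ^ i) x) = ∏ i ∈ Finset.range n, (g ^ i) x) ∧
      g (∏ i ∈ Finset.range n, (g ^ i) x) = ∏ i ∈ Finset.range n, (g ^ i) x := by
  have hfix : ∀ (i : ℕ), ∀ h ∈ H, h ((g ^ i) x) = (g ^ i) x := by
    intro i
    induction i with
    | zero => intro h hh; simpa using hx h hh
    | succ i ih =>
      rw [pow_succ', AlgEquiv.mul_apply]
      exact fixed_of_normalizes hnorm ih
  refine ⟨fun h hh => by rw [map_prod]; exact Finset.prod_congr rfl fun i _ => hfix i h hh, ?_⟩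
  rw [map_prod]
  have hend : (g ^ n) x = (g ^ 0) x := by rw [pow_zero, AlgEquiv.one_apply]; exact hx _ hgn
  have h1 := Finset.prod_range_succ (fun i => (g ^ i) x) n
  have h2 := Finset.prod_range_succ' (fun i => (g ^ i) x) n
  rw [h2, hend] at h1
  rcases eq_or_ne x 0 with rfl | hx0
  · simp
  · refine (Finset.prod_congr rfl fun i _ => ?_).trans
      (mul_right_cancel₀ (by simpa using hx0) h1)
    rw [pow_succ', AlgEquiv.mul_apply]

/-! ## The tower -/

variable (A p) in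
/-- Subgroups `Hk ≤ H₁` of inertia, generated successively by `σ` and `τ₀`, in degrees `p` and
`p - 1`, with `τ₀` acting on `σ` and on the roots of unity by `g`. -/
structure TowerData where
  Hk : Subgroup GQ
  H₁ : Subgroup GQ
  σ : GQ
  τ₀ : GQ
  g : ℕ
  ζ : QBar
  le : Hk ≤ H₁
  le_inertia : H₁ ≤ A.inertiaSubgroupIn ℚ
  σ_mem : σ ∈ H₁
  τ₀_mem : τ₀ ∈ A.inertiaSubgroupIn ℚ
  normal : ∀ h ∈ Hk, σ⁻¹ * h * σ ∈ Hk
  normal_τ₀ : ∀ h ∈ Hk, τ₀⁻¹ * h * τ₀ ∈ Hk
  normal₁ : ∀ h ∈ H₁, τ₀⁻¹ * h * τ₀ ∈ H₁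
  gen₁ : ∀ h ∈ H₁, ∃ i : ℕ, (σ ^ i)⁻¹ * h ∈ Hk
  pow_σ : σ ^ p ∈ Hk
  gen : ∀ τ ∈ A.inertiaSubgroupIn ℚ, ∃ i : ℕ, (τ₀ ^ i)⁻¹ * τ ∈ H₁
  pow_τ₀ : τ₀ ^ (p - 1) ∈ H₁
  primitive : ∀ j : ℕ, (g : ZMod p) ^ j = 1 → p - 1 ∣ j
  g_ne : (g : ZMod p) ≠ 0
  conj : (σ ^ g)⁻¹ * (τ₀ * σ * τ₀⁻¹) ∈ Hk
  hζ : IsPrimitiveRoot ζ p
  ζ_fixed : ∀ h ∈ H₁, h ζ = ζ
  τ₀_ζ : τ₀ ζ = ζ ^ g

variable (hA : A.LiesOverPrime p) (hp : p.Prime)
include hA hp

/-- The valuation of `ζ - 1`, and the residue of `(ζ ^ m - 1) / (ζ - 1)`. -/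
theorem zeta_sub_one {ζ : QBar} (hζ : IsPrimitiveRoot ζ p) :
    A.valuation (ζ - 1) < 1 ∧ A.valuation (ζ - 1) ^ (p - 1) = A.valuation (p : QBar) ∧
      ∀ m : ℕ, (ζ ^ m - 1) / (ζ - 1) ∈ A ∧ res A ((ζ ^ m - 1) / (ζ - 1)) = m := by
  have := Fact.mk hp
  have : CharP (IsLocalRing.ResidueField A) p := residueField_charP hA hp
  have hζA : ζ ∈ A := mem_of_isIntegral A (hζ.isIntegral hp.pos)
  have hres : res A ζ = 1 := by
    refine sub_eq_zero.mp (pow_eq_zero_iff (n := p) hp.ne_zero |>.mp ?_)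
    rw [sub_pow_char, one_pow, ← res_pow hζA, hζ.pow_eq_one, res_one, sub_self]
  have hlt : A.valuation (ζ - 1) < 1 := by
    rw [← ValuationSubring.mem_nonunits_iff, ← res_eq_zero_iff (sub_mem hζA (one_mem A)),
      res_sub hζA (one_mem A), hres, res_one, sub_self]
  have hne : ζ - 1 ≠ 0 := sub_ne_zero.mpr (hζ.ne_one hp.one_lt)
  have hdiv : ∀ m : ℕ, (ζ ^ m - 1) / (ζ - 1) ∈ A ∧ res A ((ζ ^ m - 1) / (ζ - 1)) = m := by
    intro m
    induction m with
    | zero => simp [zero_mem]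
    | succ m ih =>
      have e : (ζ ^ (m + 1) - 1) / (ζ - 1) = (ζ ^ m - 1) / (ζ - 1) * ζ + 1 := by
        field_simp
        ring
      rw [e]
      refine ⟨add_mem (mul_mem ih.1 hζA) (one_mem A), ?_⟩
      rw [res_add (mul_mem ih.1 hζA) (one_mem A), res_mul ih.1 hζA, ih.2, hres, res_one,
        mul_one, Nat.cast_succ]
  refine ⟨hlt, ?_, hdiv⟩
  obtain ⟨n, rfl⟩ : ∃ n, p = n + 1 := ⟨p - 1, by have := hp.one_le; omega⟩
  have hterm : ∀ k ∈ Finset.range n, A.valuation (1 - ζ ^ (k + 1)) = A.valuation (ζ - 1) := by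
    intro k hk
    rw [Finset.mem_range] at hk
    obtain ⟨hm, hr⟩ := hdiv (k + 1)
    have h1 : A.valuation ((ζ ^ (k + 1) - 1) / (ζ - 1)) = 1 := by
      refine le_antisymm ((A.valuation_le_one_iff _).mpr hm) (not_lt.mp fun h => ?_)
      rw [← ValuationSubring.mem_nonunits_iff, ← res_eq_zero_iff hm, hr,
        CharP.cast_eq_zero_iff (IsLocalRing.ResidueField A) (n + 1)] at h
      exact Nat.not_dvd_of_pos_of_lt (Nat.succ_pos k) (by omega) h
    rw [map_div₀, div_eq_one_iff_eq ((Valuation.ne_zero_iff _).mpr hne)] at h1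
    rw [Valuation.map_sub_swap, h1]
  rw [Nat.add_sub_cancel, Nat.cast_succ, ← hζ.prod_one_sub_pow_eq_order, map_prod,
    Finset.prod_congr rfl hterm, Finset.prod_const, Finset.card_range]

namespace TowerData

variable (T : TowerData A p)

omit hA hp in
theorem le_inertia' : T.Hk ≤ A.inertiaSubgroupIn ℚ := T.le.trans T.le_inertia

/-- The valuation of an element fixed by `H₁`. -/
theorem exists_zpow₁ {x : QBar} (hx0 : x ≠ 0) (hx : ∀ h ∈ T.H₁, h x = x) :
    ∃ k : ℤ, A.valuation x ^ (p - 1) = A.valuation (p : QBar) ^ k := by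
  obtain ⟨hN, hg⟩ := fixed_prod_pow T.normal₁ T.pow_τ₀ hx
  set N := ∏ i ∈ Finset.range (p - 1), (T.τ₀ ^ i) x
  have hN0 : N ≠ 0 := Finset.prod_ne_zero_iff.mpr fun i _ => (map_ne_zero _).mpr hx0
  obtain ⟨k, hk⟩ := exists_zpow_of_inertiaFixed hA hp hN0 fun τ hτ => by
    obtain ⟨i, hi⟩ := T.gen τ hτ
    have h1 : ∀ j : ℕ, (T.τ₀ ^ j) N = N := fun j => by
      induction j with
      | zero => simp
      | succ j ih => rw [pow_succ, AlgEquiv.mul_apply, hg, ih]
    rw [show τ = T.τ₀ ^ i * ((T.τ₀ ^ i)⁻¹ * τ) by group, AlgEquiv.mul_apply, hN _ hi, h1]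
  refine ⟨k, ?_⟩
  rw [← hk, map_prod, Finset.prod_congr rfl fun i _ =>
    valuation_inertia (pow_mem T.τ₀_mem i) x, Finset.prod_const, Finset.card_range]

/-- The valuation of an element fixed by `Hk`. -/
theorem exists_zpow {x : QBar} (hx0 : x ≠ 0) (hx : ∀ h ∈ T.Hk, h x = x) :
    ∃ k : ℤ, A.valuation x ^ (p * (p - 1)) = A.valuation (p : QBar) ^ k := by
  obtain ⟨hN, hg⟩ := fixed_prod_pow T.normal T.pow_σ hx
  set N := ∏ i ∈ Finset.range p, (T.σ ^ i) x
  have hN0 : N ≠ 0 := Finset.prod_ne_zero_iff.mpr fun i _ => (map_ne_zero _).mpr hx0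
  obtain ⟨k, hk⟩ := exists_zpow₁ hA hp T hN0 fun h hh => by
    obtain ⟨i, hi⟩ := T.gen₁ h hh
    have h1 : ∀ j : ℕ, (T.σ ^ j) N = N := fun j => by
      induction j with
      | zero => simp
      | succ j ih => rw [pow_succ, AlgEquiv.mul_apply, hg, ih]
    rw [show h = T.σ ^ i * ((T.σ ^ i)⁻¹ * h) by group, AlgEquiv.mul_apply, hN _ hi, h1]
  refine ⟨k, ?_⟩
  rw [← hk, map_prod, Finset.prod_congr rfl fun i _ =>
    valuation_inertia (pow_mem (T.le_inertia T.σ_mem) i) x, Finset.prod_const, Finset.card_range,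
    pow_mul]

/-- The tame field, with uniformiser `ζ - 1`. -/
def tame : CoefField A p where
  H := T.H₁
  le_inertia := T.le_inertia
  π := T.ζ - 1
  π_ne_zero := sub_ne_zero.mpr (T.hζ.ne_one hp.one_lt)
  π_nonunit := A.mem_nonunits_iff.mpr (zeta_sub_one hA hp T.hζ).1
  π_fixed τ hτ := by rw [map_sub, map_one, T.ζ_fixed τ hτ]
  e := p - 1
  e_pos := by have := hp.two_le; omega
  val_p := (zeta_sub_one hA hp T.hζ).2.1.symm
  discrete x hx0 hx := by
    obtain ⟨k, hk⟩ := exists_zpow₁ hA hp T hx0 hx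
    refine ⟨k, (pow_left_inj₀ zero_le zero_le (by have := hp.two_le; omega : p - 1 ≠ 0)).mp ?_⟩
    rw [hk, ← (zeta_sub_one hA hp T.hζ).2.1, ← zpow_natCast, ← zpow_natCast, ← zpow_mul, ← zpow_mul,
      mul_comm]

/-! ## Residues of the conjugates of a uniformiser -/

/-- Some element fixed by `Hk` has order prime to `p`. -/
private theorem exists_fixed_not_dvd {z : QBar} (hz : z ∈ A) (hzH : ∀ h ∈ T.Hk, h z = z)
    (hzσ : A.valuation (T.σ z - z) = A.valuation (T.ζ - 1)) :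
    ∃ y : QBar, y ≠ 0 ∧ (∀ h ∈ T.Hk, h y = y) ∧ ∃ k : ℤ,
      A.valuation y ^ (p * (p - 1)) = A.valuation (p : QBar) ^ k ∧ ¬ (p : ℤ) ∣ k := by
  set v := A.valuation with hvdef
  obtain ⟨hP1, hP1p, -⟩ := zeta_sub_one hA hp T.hζ
  set π₁ := T.ζ - 1 with hπ₁
  have hπ₁0 : π₁ ≠ 0 := sub_ne_zero.mpr (T.hζ.ne_one hp.one_lt)
  have hσI := T.le_inertia T.σ_mem
  have he0 : p * (p - 1) ≠ 0 := mul_ne_zero hp.ne_zero (by have := hp.two_le; omega)
  -- otherwise all these orders are multiples of that of `ζ - 1`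
  by_contra hcon
  simp only [not_exists, not_and, not_not] at hcon
  -- subtract an inertia-fixed lift of the residue
  obtain ⟨a, ha, hafix, har⟩ := exists_inertiaFixed_lift hA hp (IsLocalRing.residue A ⟨z, hz⟩)
  set w₀ := z - a with hw₀
  have hw₀lt : v w₀ < 1 := by
    rw [hvdef, ← ValuationSubring.mem_nonunits_iff, ← res_eq_zero_iff (sub_mem hz ha),
      res_sub hz ha, res_of_mem hz, res_of_mem ha, har, sub_self]
  have hσw₀ : T.σ w₀ - w₀ = T.σ z - z := by
    rw [hw₀, map_sub, hafix _ hσI]; ring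
  have hw₀H : ∀ h ∈ T.Hk, h w₀ = w₀ := fun h hh => by
    rw [hw₀, map_sub, hafix _ (T.le_inertia' hh), hzH h hh]
  have hw₀0 : w₀ ≠ 0 := fun e => by
    rw [← hσw₀, e, map_zero, sub_zero, map_zero] at hzσ
    exact (Valuation.ne_zero_iff _).mpr hπ₁0 hzσ.symm
  obtain ⟨n, hn⟩ := exists_zpow hA hp T hw₀0 hw₀H
  obtain ⟨m, rfl⟩ := hcon w₀ hw₀0 hw₀H n hn
  -- what is left is a unit times a positive power of `ζ - 1`
  have hvw : v w₀ = v π₁ ^ m := by
    refine (pow_left_inj₀ zero_le zero_le he0).mp ?_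
    show v w₀ ^ (p * (p - 1)) = (v π₁ ^ m) ^ (p * (p - 1))
    rw [hn, ← hP1p, ← zpow_natCast, ← zpow_natCast _ (p * (p - 1)), ← zpow_mul, ← zpow_mul]
    push_cast
    ring_nf
    rfl
  have hm : 0 < m := by
    by_contra hle
    rw [hvw] at hw₀lt
    exact absurd (one_le_zpow_of_nonpos₀
      (zero_lt_iff.mpr ((Valuation.ne_zero_iff _).mpr hπ₁0)) hP1.le (not_lt.mp hle))
      (not_le.mpr hw₀lt)
  -- which `σ` moves by less than `ζ - 1`
  set w := w₀ / π₁ ^ m with hw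
  have hvw1 : v w = 1 := by
    rw [hw, map_div₀, map_zpow₀, hvw,
      div_self (zpow_ne_zero _ ((Valuation.ne_zero_iff _).mpr hπ₁0))]
  have e : T.σ w₀ - w₀ = π₁ ^ m * (T.σ w - w) := by
    rw [hw, map_div₀, map_zpow₀, show T.σ π₁ = π₁ from (tame hA hp T).π_fixed _ T.σ_mem, mul_sub,
      mul_div_cancel₀ _ (zpow_ne_zero m hπ₁0), mul_div_cancel₀ _ (zpow_ne_zero m hπ₁0)]
  have hlt : v (T.σ w - w) < 1 :=
    valuation_inertia_sub_lt hσI ((A.valuation_le_one_iff _).mp hvw1.le)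
  rw [← hσw₀, e, map_mul, map_zpow₀] at hzσ
  have h1 : v π₁ ^ m ≤ v π₁ := by
    conv_rhs => rw [← zpow_one (v π₁)]
    exact zpow_le_zpow_right_of_le_one₀ (zero_lt_iff.mpr ((Valuation.ne_zero_iff _).mpr hπ₁0))
      hP1.le (by omega)
  have h2 : v π₁ ^ m * v (T.σ w - w) < v π₁ ^ m :=
    mul_lt_of_lt_one_right
      (zpow_pos (zero_lt_iff.mpr ((Valuation.ne_zero_iff _).mpr hπ₁0)) m) hlt
  exact absurd hzσ (h2.trans_le h1).ne

/-- The bound on `σ π - π` holds for `σ x - x`, every integral `x` fixed by `Hk`. -/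
private theorem sigma_sub_le {π : QBar} (hπ0 : π ≠ 0) (hπH : ∀ h ∈ T.Hk, h π = π)
    (hπlt : A.valuation π < 1)
    (hstep : ∀ x : QBar, (∀ h ∈ T.Hk, h x = x) → A.valuation x < 1 →
      A.valuation x ≤ A.valuation π)
    {J : ℕ} (hJ : A.valuation (T.σ π - π) ≤ A.valuation π ^ J) :
    ∀ x ∈ A, (∀ h ∈ T.Hk, h x = x) → A.valuation (T.σ x - x) ≤ A.valuation π ^ J := by
  set v := A.valuation with hvdef
  have hσI := T.le_inertia T.σ_mem
  have hQpos : 0 < v π := zero_lt_iff.mpr ((Valuation.ne_zero_iff _).mpr hπ0)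
  -- induction on the precision
  have key : ∀ M : ℕ, ∀ x ∈ A, (∀ h ∈ T.Hk, h x = x) →
      v (T.σ x - x) ≤ max (v π ^ J) (v π ^ M) := by
    intro M
    induction M with
    | zero =>
      intro x hx _
      refine le_max_of_le_right ?_
      rw [pow_zero]
      exact (valuation_inertia_sub_lt hσI hx).le
    | succ M ih =>
      intro x hx hxH
      obtain ⟨c, hc, hcfix, hcr⟩ := exists_inertiaFixed_lift hA hp (IsLocalRing.residue A ⟨x, hx⟩)
      -- write `x = c + π x₁` with `c` fixed by inertia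
      have hd : v (x - c) ≤ v π := by
        refine hstep _ (fun h hh => by rw [map_sub, hxH h hh, hcfix _ (T.le_inertia' hh)]) ?_
        rw [hvdef, ← ValuationSubring.mem_nonunits_iff, ← res_eq_zero_iff (sub_mem hx hc),
          res_sub hx hc, res_of_mem hx, res_of_mem hc, hcr, sub_self]
      set x₁ := (x - c) / π with hx₁
      have hx₁A : x₁ ∈ A := by
        rw [← A.valuation_le_one_iff, hx₁, map_div₀]
        exact (div_le_one₀ hQpos).mpr hd
      have hx₁H : ∀ h ∈ T.Hk, h x₁ = x₁ := fun h hh => by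
        rw [hx₁, map_div₀, map_sub, hxH h hh, hcfix _ (T.le_inertia' hh), hπH h hh]
      -- then `σ x - x` splits into two terms
      have e : T.σ x - x = (T.σ π - π) * T.σ x₁ + π * (T.σ x₁ - x₁) := by
        have hxe : x = c + π * x₁ := by rw [hx₁, mul_div_cancel₀ _ hπ0]; ring
        rw [hxe, map_add, map_mul, hcfix _ hσI]
        ring
      rw [e]
      refine v.map_add_le ?_ ?_
      · rw [map_mul]
        refine le_max_of_le_left (le_trans ?_ hJ)
        refine mul_le_of_le_one_right' ?_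
        rw [hvdef, valuation_inertia hσI]
        exact (A.valuation_le_one_iff _).mpr hx₁A
      · rw [map_mul]
        refine le_trans (mul_le_mul_right (ih x₁ hx₁A hx₁H) _) ?_
        rcases le_total (v π ^ J) (v π ^ M) with h | h
        · rw [max_eq_right h, ← pow_succ']
          exact le_max_right _ _
        · rw [max_eq_left h]
          exact le_max_of_le_left (mul_le_of_le_one_left' hπlt.le)
  intro x hx hxH
  exact (key J x hx hxH).trans (max_le le_rfl le_rfl)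

/-- `σ π / π` reduces to one. -/
private theorem res_sigma_div_eq_one {π : QBar} (hπ0 : π ≠ 0) (hπH : ∀ h ∈ T.Hk, h π = π) :
    res A (T.σ π / π) = 1 := by
  have := Fact.mk hp
  have : CharP (IsLocalRing.ResidueField A) p := residueField_charP hA hp
  have hσI := T.le_inertia T.σ_mem
  set ε := T.σ π / π with hεdef
  have hεA : ε ∈ A := (A.valuation_le_one_iff ε).mp (le_of_eq (by
    rw [hεdef, map_div₀, valuation_inertia hσI, div_self ((Valuation.ne_zero_iff _).mpr hπ0)]))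
  have key : ∀ i : ℕ, (T.σ ^ i) π / π ∈ A ∧ res A ((T.σ ^ i) π / π) = res A ε ^ i := by
    intro i
    induction i with
    | zero => simp [div_self hπ0, one_mem]
    | succ i ih =>
      obtain ⟨h1, h2⟩ := res_inertia_map hσI ih.1
      have e : (T.σ ^ (i + 1)) π / π = T.σ ((T.σ ^ i) π / π) * ε := by
        rw [pow_succ', AlgEquiv.mul_apply, map_div₀, hεdef,
          div_mul_div_cancel₀ ((map_ne_zero _).mpr hπ0)]
      rw [e]
      exact ⟨mul_mem h1 hεA, by rw [res_mul h1 hεA, h2, ih.2, pow_succ]⟩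
  refine sub_eq_zero.mp (pow_eq_zero_iff (n := p) hp.ne_zero |>.mp ?_)
  rw [sub_pow_char, one_pow, ← (key p).2, hπH _ T.pow_σ, div_self hπ0, res_one, sub_self]

/-- `τ₀ π / π` reduces to `g`, for `π` a `p`-th root of `ζ - 1` up to a unit. -/
private theorem res_tame_div_eq {π : QBar} (hπ0 : π ≠ 0)
    (hQ1 : A.valuation (T.ζ - 1) = A.valuation π ^ p) : res A (T.τ₀ π / π) = T.g := by
  have := Fact.mk hp
  have : CharP (IsLocalRing.ResidueField A) p := residueField_charP hA hp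
  set v := A.valuation with hvdef
  obtain ⟨-, -, hP1res⟩ := zeta_sub_one hA hp T.hζ
  set π₁ := T.ζ - 1 with hπ₁
  have hQ0 : v π ≠ 0 := (Valuation.ne_zero_iff _).mpr hπ0
  set c := T.τ₀ π / π with hcdef
  have hcA : c ∈ A := (A.valuation_le_one_iff c).mp (le_of_eq (by
    rw [hcdef, map_div₀, valuation_inertia T.τ₀_mem, div_self hQ0]))
  set κ := res A c with hκ
  set η := π₁ / π ^ p with hη
  have hηv : v η = 1 := by
    rw [hη, map_div₀, map_pow, hQ1, div_self (pow_ne_zero _ hQ0)]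
  obtain ⟨hηA, hηres⟩ := res_ne_zero_of_valuation_eq_one hηv
  obtain ⟨hτη, hτηr⟩ := res_inertia_map T.τ₀_mem hηA
  obtain ⟨hζA, hζr⟩ := hP1res T.g
  have e : (T.ζ ^ T.g - 1) / π₁ * η = c ^ p * T.τ₀ η := by
    have hη0 : π ^ p ≠ 0 := pow_ne_zero _ hπ0
    rw [hη, map_div₀, map_pow, hcdef, div_pow, hπ₁, map_sub, map_one, T.τ₀_ζ,
      div_mul_div_cancel₀ (sub_ne_zero.mpr (T.hζ.ne_one hp.one_lt)),
      div_mul_div_cancel₀' (pow_ne_zero _ ((map_ne_zero _).mpr hπ0))]
  have e' := congrArg (res A) e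
  rw [res_mul hζA hηA, hζr, res_mul (pow_mem hcA p) hτη, hτηr, res_pow hcA, ← hκ] at e'
  have h1 : κ ^ p = (T.g : IsLocalRing.ResidueField A) := mul_right_cancel₀ hηres e'.symm
  refine sub_eq_zero.mp (pow_eq_zero_iff (n := p) hp.ne_zero |>.mp ?_)
  rw [sub_pow_char, h1, sub_eq_zero]
  have h2 : (T.g : ZMod p) ^ p = T.g := ZMod.pow_card _
  have := congrArg (ZMod.castHom (dvd_refl p) (IsLocalRing.ResidueField A)) h2
  rw [map_pow, map_natCast] at this
  exact this.symm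

omit hA hp in
/-- An element of the maximal ideal fixed by `Hk` has valuation at most that of a uniformiser. -/
private theorem valuation_le_uniformiser {π : QBar} (hπ0 : π ≠ 0) (hπlt : A.valuation π < 1)
    (hdisc : ∀ x : QBar, x ≠ 0 → (∀ h ∈ T.Hk, h x = x) →
      ∃ n : ℤ, A.valuation x = A.valuation π ^ n)
    (x : QBar) (hx : ∀ h ∈ T.Hk, h x = x) (hlt : A.valuation x < 1) :
    A.valuation x ≤ A.valuation π := by
  have hQpos : 0 < A.valuation π := zero_lt_iff.mpr ((Valuation.ne_zero_iff _).mpr hπ0)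
  rcases eq_or_ne x 0 with rfl | hx0
  · simp
  · obtain ⟨n, hn⟩ := hdisc x hx0 hx
    rw [hn] at hlt ⊢
    refine le_of_le_of_eq (zpow_le_zpow_right_of_le_one₀ hQpos hπlt.le (?_ : 1 ≤ n)) (zpow_one _)
    by_contra hlen
    exact absurd (one_le_zpow_of_nonpos₀ hQpos hπlt.le (by omega)) (not_le.mpr hlt)

/-! ## The jump -/

/-- The order of `σ π - π` is `j + 1` with `1 ≤ j < p`, for a uniformiser `π`. -/
private theorem exists_jump {z : QBar} (hz : z ∈ A) (hzH : ∀ h ∈ T.Hk, h z = z)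
    (hzσ : A.valuation (T.σ z - z) = A.valuation (T.ζ - 1)) {π : QBar} (hπ0 : π ≠ 0)
    (hπH : ∀ h ∈ T.Hk, h π = π) (hπlt : A.valuation π < 1)
    (hQ1 : A.valuation (T.ζ - 1) = A.valuation π ^ p)
    (hdisc : ∀ x : QBar, x ≠ 0 → (∀ h ∈ T.Hk, h x = x) →
      ∃ n : ℤ, A.valuation x = A.valuation π ^ n) :
    ∃ j : ℕ, 1 ≤ j ∧ j < p ∧ A.valuation (T.σ π - π) = A.valuation π ^ (j + 1) := by
  set v := A.valuation with hvdef
  have hQ0 : v π ≠ 0 := (Valuation.ne_zero_iff _).mpr hπ0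
  have hQpos : 0 < v π := zero_lt_iff.mpr hQ0
  have hstep := valuation_le_uniformiser T hπ0 hπlt hdisc
  set ε := T.σ π / π with hεdef
  have hεv : v ε = 1 := by
    rw [hεdef, map_div₀, hvdef, valuation_inertia (T.le_inertia T.σ_mem), div_self hQ0]
  obtain ⟨hεA, -⟩ := res_ne_zero_of_valuation_eq_one hεv
  have hεone : res A ε = 1 := res_sigma_div_eq_one hA hp T hπ0 hπH
  have hbig : ¬ v (T.σ π - π) ≤ v π ^ (p + 1) := by
    intro hle
    have := sigma_sub_le hA hp T hπ0 hπH hπlt hstep hle z hz hzH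
    rw [hzσ, hQ1] at this
    exact absurd this (not_le.mpr (pow_lt_pow_right_of_lt_one₀ hQpos hπlt (Nat.lt_succ_self p)))
  have hne : T.σ π - π ≠ 0 := fun e => hbig (by rw [e, map_zero]; exact zero_le)
  have hεne : ε - 1 ≠ 0 := by
    rw [hεdef, div_sub_one hπ0]; exact div_ne_zero hne hπ0
  have hdH : ∀ h ∈ T.Hk, h (ε - 1) = ε - 1 := fun h hh => by
    rw [hεdef, map_sub, map_div₀, map_one, fixed_of_normalizes T.normal hπH h hh, hπH h hh]
  obtain ⟨n, hn⟩ := hdisc (ε - 1) hεne hdH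
  have hεlt : v (ε - 1) < 1 := by
    rw [hvdef, ← ValuationSubring.mem_nonunits_iff, ← res_eq_zero_iff (sub_mem hεA (one_mem A)),
      res_sub hεA (one_mem A), hεone, res_one, sub_self]
  have hn0 : 0 < n := by
    by_contra hle
    rw [hn] at hεlt
    exact absurd (one_le_zpow_of_nonpos₀ hQpos hπlt.le (not_lt.mp hle)) (not_le.mpr hεlt)
  obtain ⟨j, rfl⟩ := Int.eq_ofNat_of_zero_le hn0.le
  have hjv : v (T.σ π - π) = v π ^ (j + 1) := by
    rw [show T.σ π - π = (ε - 1) * π by rw [hεdef, sub_mul, div_mul_cancel₀ _ hπ0, one_mul],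
      map_mul, hn, zpow_natCast, pow_succ]
  refine ⟨j, by omega, ?_, hjv⟩
  by_contra hge
  exact hbig (hjv.le.trans (pow_le_pow_of_le_one zero_le hπlt.le (by omega)))

/-- `(σ ^ n π - π) / π ^ (j + 1)` reduces to `n` times the residue of the case `n = 1`. -/
private theorem res_sigma_pow_sub {π : QBar} (hπ0 : π ≠ 0) (hπH : ∀ h ∈ T.Hk, h π = π) {j : ℕ}
    (hjv : A.valuation (T.σ π - π) = A.valuation π ^ (j + 1)) (n : ℕ) :
    ((T.σ ^ n) π - π) / π ^ (j + 1) ∈ A ∧
      res A (((T.σ ^ n) π - π) / π ^ (j + 1)) = n * res A ((T.σ π - π) / π ^ (j + 1)) := by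
  have hσI := T.le_inertia T.σ_mem
  have hQ0 : A.valuation π ≠ 0 := (Valuation.ne_zero_iff _).mpr hπ0
  set ε := T.σ π / π with hεdef
  have hεA : ε ∈ A := (res_ne_zero_of_valuation_eq_one (by
    rw [hεdef, map_div₀, valuation_inertia hσI, div_self hQ0])).1
  have hεone : res A ε = 1 := res_sigma_div_eq_one hA hp T hπ0 hπH
  set U := (T.σ π - π) / π ^ (j + 1) with hUdef
  have hUA : U ∈ A := (res_ne_zero_of_valuation_eq_one (by
    rw [hUdef, map_div₀, map_pow, hjv, div_self (pow_ne_zero _ hQ0)])).1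
  induction n with
  | zero => simp [zero_mem]
  | succ n ih =>
    obtain ⟨h1, h2⟩ := res_inertia_map hσI ih.1
    have e : ((T.σ ^ (n + 1)) π - π) / π ^ (j + 1) =
        T.σ (((T.σ ^ n) π - π) / π ^ (j + 1)) * ε ^ (j + 1) + U := by
      rw [pow_succ', AlgEquiv.mul_apply, map_div₀, map_sub, map_pow, hεdef, hUdef, div_pow,
        div_mul_div_cancel₀ (pow_ne_zero _ ((map_ne_zero _).mpr hπ0)), ← add_div]
      congr 1
      ring
    have h3 := mul_mem h1 (pow_mem hεA (j + 1))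
    rw [e]
    exact ⟨add_mem h3 hUA, by
      rw [res_add h3 hUA, res_mul h1 (pow_mem hεA _), res_pow hεA, hεone, one_pow, mul_one, h2,
        ih.2, Nat.cast_succ, add_mul, one_mul]⟩

/-- Conjugation by `τ₀` gives the `j`-th power of the residue of `τ₀ π / π` the value `g`. -/
private theorem res_tame_div_pow_eq {π : QBar} (hπ0 : π ≠ 0) (hπH : ∀ h ∈ T.Hk, h π = π)
    (hπlt : A.valuation π < 1)
    (hstep : ∀ x : QBar, (∀ h ∈ T.Hk, h x = x) → A.valuation x < 1 →
      A.valuation x ≤ A.valuation π)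
    {j : ℕ} (hjv : A.valuation (T.σ π - π) = A.valuation π ^ (j + 1)) :
    res A (T.τ₀ π / π) ^ j = T.g := by
  set v := A.valuation with hvdef
  have hσI := T.le_inertia T.σ_mem
  have hQ0 : v π ≠ 0 := (Valuation.ne_zero_iff _).mpr hπ0
  have hQpos : 0 < v π := zero_lt_iff.mpr hQ0
  have hUn := res_sigma_pow_sub hA hp T hπ0 hπH hjv
  set U := (T.σ π - π) / π ^ (j + 1) with hUdef
  obtain ⟨hUA, hUres⟩ := res_ne_zero_of_valuation_eq_one (x := U) (A := A) (by
    rw [hUdef, map_div₀, map_pow, hjv, div_self (pow_ne_zero _ hQ0)])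
  -- powers of `σ` move integral elements by at most `π ^ (j + 1)`
  have hσn : ∀ (n : ℕ), ∀ x ∈ A, (∀ h ∈ T.Hk, h x = x) →
      v ((T.σ ^ n) x - x) ≤ v π ^ (j + 1) := by
    intro n
    induction n with
    | zero => intro x _ _; simp
    | succ n ih =>
      intro x hx hxH
      rw [pow_succ, AlgEquiv.mul_apply, ← sub_add_sub_cancel _ (T.σ x) x]
      exact v.map_add_le (ih _ (res_inertia_map hσI hx).1 (fixed_of_normalizes T.normal hxH))
        (sigma_sub_le hA hp T hπ0 hπH hπlt hstep hjv.le x hx hxH)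
  -- `c = τ₀ π / π`
  set c := T.τ₀ π / π with hcdef
  have hcv : v c = 1 := by rw [hcdef, map_div₀, hvdef, valuation_inertia T.τ₀_mem, div_self hQ0]
  obtain ⟨hcA, hcres⟩ := res_ne_zero_of_valuation_eq_one hcv
  have hτπ : ∀ h ∈ T.Hk, h (T.τ₀ π) = T.τ₀ π := fixed_of_normalizes T.normal_τ₀ hπH
  have hcfix : ∀ h ∈ T.Hk, h c = c := fun h hh => by
    rw [hcdef, map_div₀, hτπ h hh, hπH h hh]
  -- on these elements `τ₀ σ = σ ^ g τ₀`
  have hswap : T.τ₀ (T.σ π) = (T.σ ^ T.g) (T.τ₀ π) := by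
    have e := hτπ _ T.conj
    calc T.τ₀ (T.σ π)
        = (T.σ ^ T.g) (((T.σ ^ T.g)⁻¹ * (T.τ₀ * T.σ * T.τ₀⁻¹)) (T.τ₀ π)) := by
          simp only [← AlgEquiv.mul_apply]
          congr 1
          group
      _ = _ := by rw [e]
  set X := ((T.σ ^ T.g) c - c) / π ^ (j + 1) with hX
  have hXA : X ∈ A := by
    rw [← A.valuation_le_one_iff, hX, map_div₀, map_pow]
    exact (div_le_one₀ (pow_pos hQpos _)).mpr (hσn _ c hcA hcfix)
  have hgI := pow_mem hσI T.g
  have hgπ : v ((T.σ ^ T.g) π) < 1 := by rw [hvdef, valuation_inertia hgI]; exact hπlt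
  obtain ⟨hgπA, hgπr⟩ : (T.σ ^ T.g) π ∈ A ∧ res A ((T.σ ^ T.g) π) = 0 :=
    ⟨(A.valuation_le_one_iff _).mp hgπ.le,
      res_eq_zero (A.mem_nonunits_iff.mpr hgπ)⟩
  obtain ⟨hτU, hτUr⟩ := res_inertia_map T.τ₀_mem hUA
  -- so conjugating `σ π - π` by `τ₀` gives `c ^ j ≡ g`
  have e : T.τ₀ U * c ^ (j + 1) =
      X * (T.σ ^ T.g) π + c * (((T.σ ^ T.g) π - π) / π ^ (j + 1)) := by
    have hcπ : T.τ₀ π = c * π := by rw [hcdef, div_mul_cancel₀ _ hπ0]
    have hc0 : c ≠ 0 := div_ne_zero ((map_ne_zero _).mpr hπ0) hπ0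
    rw [hX, hUdef, map_div₀, map_sub, map_pow, hswap, hcπ, map_mul, mul_pow]
    field_simp
    ring
  have e' := congrArg (res A) e
  rw [res_mul hτU (pow_mem hcA _), hτUr, res_pow hcA,
    res_add (mul_mem hXA hgπA) (mul_mem hcA (hUn _).1), res_mul hXA hgπA, hgπr, mul_zero,
    zero_add, res_mul hcA (hUn _).1, (hUn _).2, pow_succ] at e'
  refine mul_left_cancel₀ (mul_ne_zero hUres hcres) ?_
  linear_combination e'

/-- An element moved by `σ` exactly to order `ζ - 1` forces lower jump one. -/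
theorem exists_wild {z : QBar} (hz : z ∈ A) (hzH : ∀ h ∈ T.Hk, h z = z)
    (hzσ : A.valuation (T.σ z - z) = A.valuation (T.ζ - 1)) :
    ∃ W : Wild A p, W.C.H = T.Hk ∧ W.C₁.H = T.H₁ ∧ W.σ = T.σ := by
  have := Fact.mk hp
  have : CharP (IsLocalRing.ResidueField A) p := residueField_charP hA hp
  set v := A.valuation
  obtain ⟨-, hP1p, -⟩ := zeta_sub_one hA hp T.hζ
  set π₁ := T.ζ - 1
  have hπ₁0 : π₁ ≠ 0 := sub_ne_zero.mpr (T.hζ.ne_one hp.one_lt)
  have hvp0 : v (p : QBar) ≠ 0 := (Valuation.ne_zero_iff _).mpr (Nat.cast_ne_zero.mpr hp.ne_zero)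
  have hπ₁fix : ∀ h ∈ T.Hk, h π₁ = π₁ := fun h hh => (tame hA hp T).π_fixed h (T.le hh)
  have he0 : p * (p - 1) ≠ 0 := mul_ne_zero hp.ne_zero (by have := hp.two_le; omega)
  -- some fixed element has order prime to `p`
  obtain ⟨y, hy0, hyH, k, hk, hpk⟩ := exists_fixed_not_dvd hA hp T hz hzH hzσ
  -- the uniformiser
  obtain ⟨a, b, hab⟩ : ∃ a b : ℤ, a * k + b * p = 1 :=
    ((Nat.prime_iff_prime_int.mp hp).coprime_iff_not_dvd.mpr hpk).symm
  set π := y ^ a * π₁ ^ b with hπdef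
  have hπ0 : π ≠ 0 := mul_ne_zero (zpow_ne_zero _ hy0) (zpow_ne_zero _ hπ₁0)
  have hπH : ∀ h ∈ T.Hk, h π = π := fun h hh => by
    rw [hπdef, map_mul, map_zpow₀, map_zpow₀, hyH h hh, hπ₁fix h hh]
  have hπe : v π ^ (p * (p - 1)) = v (p : QBar) := by
    have e1 : v π₁ ^ (p * (p - 1)) = v (p : QBar) ^ p := by rw [mul_comm, pow_mul, hP1p]
    rw [hπdef, map_mul, map_zpow₀, map_zpow₀, mul_pow, ← zpow_natCast (v y ^ a),
      ← zpow_natCast (v π₁ ^ b), ← zpow_mul, ← zpow_mul, mul_comm a, mul_comm b, zpow_mul,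
      zpow_mul, zpow_natCast, zpow_natCast, hk, e1, ← zpow_natCast (v (p : QBar)) p, ← zpow_mul,
      ← zpow_mul, ← zpow_add₀ hvp0, mul_comm k, mul_comm (p : ℤ), hab, zpow_one]
  have hπlt : v π < 1 := by
    refine lt_of_not_ge fun hge => ?_
    have h1 : 1 ≤ v (p : QBar) := hπe ▸ one_le_pow₀ hge
    exact not_lt.mpr h1 hA
  let C : CoefField A p :=
    { H := T.Hk
      le_inertia := T.le_inertia'
      π := π
      π_ne_zero := hπ0
      π_nonunit := A.mem_nonunits_iff.mpr hπlt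
      π_fixed := hπH
      e := p * (p - 1)
      e_pos := Nat.pos_of_ne_zero he0
      val_p := hπe.symm
      discrete := fun x hx0 hx => by
        obtain ⟨n, hn⟩ := exists_zpow hA hp T hx0 hx
        refine ⟨n, (pow_left_inj₀ zero_le zero_le he0).mp ?_⟩
        show v x ^ (p * (p - 1)) = (v π ^ n) ^ (p * (p - 1))
        rw [hn, ← hπe, ← zpow_natCast, ← zpow_natCast _ (p * (p - 1)), ← zpow_mul, ← zpow_mul,
          mul_comm] }
  have hQ0 : v π ≠ 0 := (Valuation.ne_zero_iff _).mpr hπ0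
  have hQpos : 0 < v π := zero_lt_iff.mpr hQ0
  have hQ1 : v π₁ = v π ^ p := by
    refine (pow_left_inj₀ zero_le zero_le (by have := hp.two_le; omega : p - 1 ≠ 0)).mp ?_
    show v π₁ ^ (p - 1) = (v π ^ p) ^ (p - 1)
    rw [hP1p, ← pow_mul, hπe]
  have hstep := valuation_le_uniformiser T hπ0 hπlt C.discrete
  have bound : ∀ J : ℕ, v (T.σ π - π) ≤ v π ^ J → ∀ x ∈ A, (∀ h ∈ T.Hk, h x = x) →
      v (T.σ x - x) ≤ v π ^ J := fun J hJ => sigma_sub_le hA hp T hπ0 hπH hπlt hstep hJ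
  -- the jump
  obtain ⟨j, hj1, hjp, hjv⟩ := exists_jump hA hp T hz hzH hzσ hπ0 hπH hπlt hQ1 C.discrete
  set U := (T.σ π - π) / π ^ (j + 1) with hUdef
  have hUv : v U = 1 := by rw [hUdef, map_div₀, map_pow, hjv, div_self (pow_ne_zero _ hQ0)]
  obtain ⟨hUA, hUres⟩ := res_ne_zero_of_valuation_eq_one hUv
  have hkey := res_tame_div_pow_eq hA hp T hπ0 hπH hπlt hstep hjv
  have hκg : res A (T.τ₀ π / π) = T.g := res_tame_div_eq hA hp T hπ0 hQ1
  have hj : j = 1 := by
    rw [hκg] at hkey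
    have h1 : (T.g : ZMod p) ^ j = T.g := (ZMod.castHom (dvd_refl p)
      (IsLocalRing.ResidueField A)).injective (by rw [map_pow, map_natCast]; exact hkey)
    obtain ⟨i, rfl⟩ : ∃ i, j = i + 1 := ⟨j - 1, by omega⟩
    rw [pow_succ] at h1
    have h2 := T.primitive i ((mul_eq_right₀ T.g_ne).mp h1)
    rcases Nat.eq_zero_or_pos i with rfl | hi
    · rfl
    · have := Nat.le_of_dvd hi h2; omega
  subst hj
  refine ⟨{ C := C, C₁ := tame hA hp T, σ := T.σ, le := T.le, σ_mem := T.σ_mem, e_eq := rfl,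
            e₁_eq := rfl, normal := T.normal, u := ⟨U, hUA⟩,
            u_ne := by rw [← res_of_mem hUA]; exact hUres,
            σ_π := ⟨0, zero_mem A, ?_⟩, scalar := fun x hx hxH => ?_ }, rfl, rfl, rfl⟩
  · show T.σ π = π * (1 + U * π + 0 * π ^ 2)
    rw [hUdef]
    field_simp
    ring
  · refine ⟨(T.σ x - x) / π ^ 2, ?_, (div_mul_cancel₀ _ (pow_ne_zero 2 hπ0)).symm⟩
    rw [← A.valuation_le_one_iff, map_div₀, map_pow]
    exact (div_le_one₀ (pow_pos hQpos _)).mpr (bound 2 hjv.le x hx hxH)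

end TowerData

end Fermat.Agent.RT.MazurP

end
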