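import Fermat.Agent.RT.MazurP.Lift

/-!
# The wild generator modulo the square of the uniformiser

On integral series with coefficients in the field the generator is the identity modulo the square
of the uniformiser.
-/

set_option autoImplicit false

noncomputable section

namespace Fermat.Agent.RT.MazurP

open ModularCurve Fermat.Agent.Semistable Fermat.Agent.Arith
open Fermat.Agent.RT.Mazur

variable {A : ValuationSubring QBar} {p : ℕ}

/-- An element of `locS` with a nonzero scalar multiple integral is integral. -/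
theorem mem_intS_of_mem_locS (hA : A.LiesOverPrime p) (hp : p.Prime) {y a : LSer} {d : QBar}
    (hd : d ≠ 0) (hy : y ∈ locS A) (ha : a ∈ intS A) (h : algebraMap QBar LSer d * y = a) :
    y ∈ intS A := by
  rcases eq_or_ne y 0 with rfl | hy0
  · exact zero_mem _
  obtain ⟨c, hc, hca, hred, -⟩ := exists_scale_intS hA hp ha
    (by rw [← h]; exact mul_ne_zero ((_root_.map_ne_zero _).mpr hd) hy0)
  have hy' : y = algebraMap QBar LSer (c * d)⁻¹ * (algebraMap QBar LSer c * a) := by
    rw [← h, ← mul_assoc (algebraMap QBar LSer c), ← map_mul, ← mul_assoc, ← map_mul,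
      inv_mul_cancel₀ (mul_ne_zero hc hd), map_one, one_mul]
  have hA' : (c * d)⁻¹ ∈ A := by
    rcases A.mem_or_inv_mem (c * d)⁻¹ with h1 | h1
    · exact h1
    rw [inv_inv] at h1
    by_contra hne
    have hnu : c * d ∈ A.nonunits := by
      by_contra hcon
      have hv := valuation_eq_one h1 hcon
      exact hne ((A.valuation_le_one_iff _).mp (by rw [map_inv₀, hv, inv_one]))
    obtain ⟨h2, e2⟩ := redL_const_mul h1 hy
    rw [(residue_eq_zero_iff _).mpr hnu, map_zero, zero_mul] at e2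
    refine hred ?_
    rw [← redL_of_mem_intS ⟨_, hca⟩, ← e2]
    refine redL_congr _ _ ?_
    show algebraMap QBar LSer c * a = algebraMap QBar LSer (c * d) * y
    rw [← h, map_mul, mul_assoc]
  rw [hy']
  exact mul_mem (algebraMap_mem_intS hA') hca

/-- Valuation of the uniformiser of the tame field. -/
theorem Wild.valuation_π₁ (W : Wild A p) (hp : p.Prime) :
    A.valuation W.C₁.π = A.valuation W.C.π ^ p := by
  have h := W.C₁.val_p.symm.trans W.C.val_p
  rw [W.e_eq, W.e₁_eq, pow_mul] at h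
  exact (pow_left_inj₀ zero_le zero_le (by have := hp.two_le; omega)).mp h

/-- `π₁ / π ^ 2` is integral. -/
theorem Wild.π₁_div_mem (W : Wild A p) (hp : p.Prime) : W.C₁.π / W.C.π ^ 2 ∈ A := by
  refine (A.valuation_le_one_iff _).mp ?_
  rw [map_div₀, W.valuation_π₁ hp, map_pow]
  refine (div_le_one₀ (pow_pos (zero_lt_iff.mpr
    ((Valuation.ne_zero_iff _).mpr W.C.π_ne_zero)) _)).mpr ?_
  exact pow_le_pow_right_of_le_one' ((A.valuation_le_one_iff _).mpr
    (mem_of_mem_nonunits W.C.π_nonunit)) hp.two_le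

/-- The action on powers of the uniformiser. -/
theorem Wild.exists_σ_π_pow (W : Wild A p) (k : ℕ) :
    ∃ w ∈ A, W.σ (W.C.π ^ k) =
      W.C.π ^ k * (1 + (k : QBar) * (W.u : QBar) * W.C.π + w * W.C.π ^ 2) := by
  obtain ⟨w₀, hw₀, e₀⟩ := W.σ_π
  have hπA : W.C.π ∈ A := mem_of_mem_nonunits W.C.π_nonunit
  induction k with
  | zero => exact ⟨0, zero_mem _, by simp⟩
  | succ k ih =>
    obtain ⟨w, hw, e⟩ := ih
    refine ⟨w + w₀ + (k : QBar) * W.u * W.u + (k : QBar) * W.u * w₀ * W.C.π +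
      w * W.u * W.C.π + w * w₀ * W.C.π ^ 2,
      add_mem (add_mem (add_mem (add_mem (add_mem hw hw₀) ?_) ?_) ?_) ?_, ?_⟩
    · exact mul_mem (mul_mem (natCast_mem A k) W.u.2) W.u.2
    · exact mul_mem (mul_mem (mul_mem (natCast_mem A k) W.u.2) hw₀) hπA
    · exact mul_mem (mul_mem hw W.u.2) hπA
    · exact mul_mem (mul_mem hw hw₀) (pow_mem hπA 2)
    · rw [pow_succ, map_mul, e, e₀]
      push_cast
      ring

/-- The generator is the identity modulo `π ^ 2` on integral series of the field. -/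
theorem Wild.exists_σ_intS (W : Wild A p) {a : LSer} (ha : a ∈ intS A) (hfix : W.C.Fix a) :
    ∃ z ∈ intS A, coeffMap (W.σ : QBar →+* QBar) a =
      a + algebraMap QBar LSer (W.C.π ^ 2) * z := by
  have hσ : coeffMap (W.σ : QBar →+* QBar) a ∈ intS A :=
    (isInertial_of_mem W.σ_mem_inertia).coeffMap_mem ha
  have hπ2 : W.C.π ^ 2 ≠ 0 := pow_ne_zero _ W.C.π_ne_zero
  refine ⟨algebraMap QBar LSer (W.C.π ^ 2)⁻¹ * (coeffMap (W.σ : QBar →+* QBar) a - a),
    mem_intS_of_coeff (mul_mem (algebraMap_mem_fracS _) (intS_le_fracS (sub_mem hσ ha)))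
      fun n => ?_, ?_⟩
  · rw [algebraMap_laurentSeries_eq_single, HahnSeries.coeff_single_zero_mul,
      HahnSeries.coeff_sub, coeff_coeffMap]
    obtain ⟨w, hw, e⟩ := W.scalar _ ((mem_intS.mp ha).2 n) fun τ hτ => hfix.coeff n hτ
    show (W.C.π ^ 2)⁻¹ * (W.σ (a.coeff n) - a.coeff n) ∈ A
    rw [e, mul_comm w, inv_mul_cancel_left₀ hπ2]
    exact hw
  · rw [← mul_assoc, ← map_mul, mul_inv_cancel₀ hπ2, map_one, one_mul]
    ring

/-- The generator is the identity modulo `π ^ 2` on fixed elements of `locS`. -/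
theorem Wild.exists_σ_locS (W : Wild A p) (hA : A.LiesOverPrime p) (hp : p.Prime) {x : LSer}
    (hx : x ∈ locS A) (hfix : W.C.Fix x) :
    ∃ z ∈ locS A, coeffMap (W.σ : QBar →+* QBar) x =
      x + algebraMap QBar LSer (W.C.π ^ 2) * z := by
  obtain ⟨a, b, d, hd, -, hb, -, hfb, h⟩ :=
    CoefField.exists_fixed_fraction hA hp (locS_le_fracS hx) hfix
  have hxb : x * (b : LSer) ∈ intS A := mem_intS_of_mem_locS hA hp hd
    (mul_mem hx (intS_le_locS b.2)) a.2 (by rw [← mul_assoc]; exact h)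
  obtain ⟨za, hza, ea⟩ := W.exists_σ_intS hxb (hfix.mul hfb)
  obtain ⟨zb, hzb, eb⟩ := W.exists_σ_intS b.2 hfb
  have hin := isInertial_of_mem W.σ_mem_inertia
  have hσb : coeffMap (W.σ : QBar →+* QBar) (b : LSer) ∈ locS A :=
    intS_le_locS (hin.coeffMap_mem b.2)
  have hred : redL A ⟨_, hσb⟩ ≠ 0 := by
    rw [redL_of_mem_intS ⟨_, hin.coeffMap_mem b.2⟩, hin.red_coeffMap b]
    exact hb
  obtain ⟨hinv, -⟩ := inv_mem_locS hσb hred
  refine ⟨(za - x * zb) * (coeffMap (W.σ : QBar →+* QBar) (b : LSer))⁻¹,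
    mul_mem (sub_mem (intS_le_locS hza) (mul_mem hx (intS_le_locS hzb))) hinv, ?_⟩
  have hσb0 : coeffMap (W.σ : QBar →+* QBar) (b : LSer) ≠ 0 :=
    (_root_.map_ne_zero _).mpr (ne_zero_of_red_ne_zero hb)
  rw [map_mul] at ea
  field_simp
  linear_combination ea - x * eb

/-- A fixed element of the tame field with zero reduction is divisible by `π ^ 2`. -/
theorem Wild.exists_eq_π_sq_mul (W : Wild A p) (hA : A.LiesOverPrime p) [Fact p.Prime] {x : LSer}
    (hx : x ∈ locS A) (hfix : W.C₁.Fix x) (h : redL A ⟨x, hx⟩ = 0) :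
    ∃ z ∈ locS A, x = algebraMap QBar LSer (W.C.π ^ 2) * z := by
  have h1 := mul_mem (algebraMap_mem_locS (W.π₁_div_mem (Fact.out : p.Prime)))
    (W.C₁.inv_π_mul_mem hA hx hfix h)
  refine ⟨_, h1, ?_⟩
  rw [← mul_assoc, ← mul_assoc, ← map_mul, ← map_mul,
    mul_div_cancel₀ _ (pow_ne_zero _ W.C.π_ne_zero), mul_inv_cancel₀ W.C₁.π_ne_zero, map_one,
    one_mul]

end Fermat.Agent.RT.MazurP

end
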