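import Fermat.Agent.RT.MazurP.Bounds
import Fermat.Agent.RT.Mazur.FixedBasis

/-!
# Spaces attached to a Kummer function and their reductions

For a function `f` of level `p M` with divisor divisible by `p` we consider the functions `φ` with
`φ ^ p f` having poles bounded by `p m` times the cusps, and the reductions of those among them
which are divisible by `π ^ k` on the second component.
-/

set_option autoImplicit false

noncomputable section

namespace Fermat.Agent.RT.MazurP

open ModularCurve AlgebraicCurve Fermat.Agent.Semistable Fermat.Agent.Arith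
open Fermat.Agent.RT.Mazur

attribute [-instance] IsLocalRing.ResidueField.algebraOfIsIntegral IsScalarTower.of_algHom
  RingHom.Finite.instFinite
attribute [local instance high] SubalgebraClass.toAlgebra
attribute [local instance 20000] Fermat.Agent.Semistable.instAlgebraKM

variable {A : ValuationSubring QBar} {p M : ℕ} [Fact p.Prime] [NeZero M]

/-- The two scalings `1` and `π ^ (-k)`. -/
def tsc (π : QBar) (k : ℤ) : Fin 2 → QBar := ![1, π ^ (-k)]

/-- The embeddings, the second one divided by `π ^ k`. -/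
def tw (hpM : ¬ p ∣ M) (π : QBar) (k : ℤ) : FB (p * M) →ₗ[QBar] (Fin 2 → LSer) where
  toFun x s := algebraMap QBar LSer (tsc π k s) * iota2 M p hpM s x
  map_add' x y := funext fun s => by rw [map_add, mul_add]; rfl
  map_smul' c x := funext fun s => by
    show _ = c • (algebraMap QBar LSer (tsc π k s) * iota2 M p hpM s x)
    rw [smul_eq_algebraMap_mul, Algebra.smul_def, map_mul, AlgHom.commutes, mul_left_comm]
    rfl

theorem tw_apply (hpM : ¬ p ∣ M) (π : QBar) (k : ℤ) (x : FB (p * M)) (s : Fin 2) :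
    tw hpM π k x s = algebraMap QBar LSer (tsc π k s) * iota2 M p hpM s x := rfl

/-- The first component of `tw` is the first embedding. -/
theorem tw_zero_apply (hpM : ¬ p ∣ M) (π : QBar) (k : ℤ) (x : FB (p * M)) :
    tw hpM π k x 0 = iota2 M p hpM 0 x := by
  rw [tw_apply]
  simp [tsc]

/-- The second component of `tw` is the second embedding divided by `π ^ k`. -/
theorem tw_one_apply (hpM : ¬ p ∣ M) (π : QBar) (k : ℤ) (x : FB (p * M)) :
    tw hpM π k x 1 = algebraMap QBar LSer (π ^ (-k)) * iota2 M p hpM 1 x := by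
  rw [tw_apply]
  simp [tsc]

theorem tw_injective (hpM : ¬ p ∣ M) (π : QBar) (k : ℤ) : Function.Injective (tw hpM π k) := by
  intro x y h
  refine (iota2 M p hpM 0).injective ?_
  have := congrFun h 0
  rwa [tw_zero_apply, tw_zero_apply] at this

/-- A function with divisor divisible by `p` and coefficients in `C`, with its normalised
reductions. -/
structure Kum (hpM : ¬ p ∣ M) (C : CoefField A p) where
  /-- The function. -/
  f : FB (p * M)
  f_ne : f ≠ 0
  dvd : ∀ v : Place QBar (FB (p * M)), (p : ℤ) ∣ v.ord f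
  fix : ∀ τ ∈ C.H, galF (p * M) τ f = f
  /-- Its orders along the two components. -/
  v : Fin 2 → ℤ
  /-- Its reductions. -/
  fb : Fin 2 → KM A M
  fb_ne : ∀ s, fb s ≠ 0
  spec : ∀ s, ∃ h : algebraMap QBar LSer (C.π ^ (-v s)) * iota2 M p hpM s f ∈ locS A,
    redL A ⟨_, h⟩ = (fb s : LaurentSeries (Res A))

/-- The trivial class over `C`. -/
def Kum.one (C : CoefField A p) (hpM : ¬ p ∣ M) : Kum hpM C where
  f := 1
  f_ne := one_ne_zero
  dvd v := by rw [v.ord_one]; exact dvd_zero _
  fix τ _ := map_one _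
  v := 0
  fb := 1
  fb_ne _ := one_ne_zero
  spec s := by
    have e : algebraMap QBar LSer (C.π ^ (-(0 : Fin 2 → ℤ) s)) * iota2 M p hpM s 1 = 1 := by
      rw [Pi.zero_apply, neg_zero, zpow_zero, map_one, map_one, one_mul]
    exact ⟨by rw [e]; exact one_mem _, (redL_congr _ (one_mem _) e).trans (map_one (redL A))⟩

namespace Kum

variable {hpM : ¬ p ∣ M} {C : CoefField A p}

/-- Every fixed function with divisor divisible by `p` gives such data. -/
theorem exists_of [CharP (Res A) p] (hA : A.LiesOverPrime p) (hM : (M : Res A) ≠ 0)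
    {f : FB (p * M)} (hf : f ≠ 0) (hdvd : ∀ v : Place QBar (FB (p * M)), (p : ℤ) ∣ v.ord f)
    (hfix : ∀ τ ∈ C.H, galF (p * M) τ f = f) : ∃ K : Kum hpM C, K.f = f := by
  have hp : p.Prime := Fact.out
  have key : ∀ s, ∃ (v : ℤ) (b : KM A M), b ≠ 0 ∧
      ∃ h : algebraMap QBar LSer (C.π ^ (-v)) * iota2 M p hpM s f ∈ locS A,
        redL A ⟨_, h⟩ = (b : LaurentSeries (Res A)) := by
    intro s
    have hfs : C.Fix (iota2 M p hpM s f) := fun τ hτ => by rw [← iota2_galF, hfix τ hτ]
    obtain ⟨v, h, hne⟩ := C.exists_zpow_isGUnit hA hp (iota2_fracS M p hpM s f)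
      ((_root_.map_ne_zero _).mpr hf) hfs
    have hmem := isRed_mem_KM p M hpM hA hM (x := f) (s := s)
      ⟨hne, C.π ^ (-v), zpow_ne_zero _ C.π_ne_zero, h, rfl⟩
    exact ⟨v, ⟨_, hmem⟩, fun h0 => hne (congrArg Subtype.val h0), h, rfl⟩
  choose v b hb hspec using key
  exact ⟨⟨f, hf, hdvd, hfix, v, b, hb, hspec⟩, rfl⟩

variable (K : Kum hpM C)

/-- The difference of the orders on the two components. -/
def δ : ℤ := K.v 1 - K.v 0

/-- Order of the first reduction. -/
def s₀ (P : Place (Res A) (KM A M)) : ℤ := P.ord (K.fb 0)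

/-- Order of the second reduction. -/
def t₀ (P : Place (Res A) (KM A M)) : ℤ := P.ord (K.fb 1)

/-- The expansions of a Kummer function have coefficients in the field. -/
theorem iota_fix (s : Fin 2) : C.Fix (iota2 M p hpM s K.f) := fun τ hτ => by
  rw [← iota2_galF, K.fix τ hτ]

/-- A `p`-th of the divisor. -/
def D : Divisor QBar (FB (p * M)) :=
  (FF.div QBar K.f).mapRange (fun n : ℤ => n / (p : ℤ)) (Int.zero_ediv _)

theorem D_mul (v : Place QBar (FB (p * M))) : (p : ℤ) * K.D v = v.ord K.f := by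
  rw [D, Finsupp.mapRange_apply, FF.div_apply]
  exact Int.mul_ediv_cancel' (K.dvd v)

theorem degree_D : Divisor.degree K.D = 0 := by
  have h : (p : ℤ) • K.D = FF.div QBar K.f := Finsupp.ext fun v => by
    rw [Finsupp.smul_apply, smul_eq_mul, K.D_mul, FF.div_apply]
  have h2 := congrArg Divisor.degree h
  rw [map_zsmul, FF.degree_div, smul_eq_zero] at h2
  exact h2.resolve_left (Int.natCast_ne_zero.mpr (Fact.out : p.Prime).ne_zero)

/-- The functions `φ` with `φ ^ p f` in `L(p m ∞)`. -/
def V (m : ℕ) : Submodule QBar (FB (p * M)) :=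
  riemannRochSpace (K.D + m • FF.poles QBar (upF M p (jM M)))

/-- `φ` is in `V m` iff `φ ^ p f` is in `HN M p (p m)`. -/
theorem mem_V {m : ℕ} {φ : FB (p * M)} : φ ∈ K.V m ↔ φ ^ p * K.f ∈ HN M p (p * m) := by
  have hp : p.Prime := Fact.out
  rcases eq_or_ne φ 0 with rfl | hφ
  · rw [zero_pow hp.ne_zero, zero_mul]
    exact ⟨fun _ => zero_mem _, fun _ => zero_mem _⟩
  rw [V, FF.mem_riemannRochSpace', RedTorsion.mem_polesSpace]
  refine forall_congr' fun v => ?_
  rw [FF.mem_ordGe, FF.mem_ordGe, or_iff_right hφ,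
    or_iff_right (mul_ne_zero (pow_ne_zero _ hφ) K.f_ne), v.ord_mul (pow_ne_zero _ hφ) K.f_ne,
    FF.ord_pow v, ← K.D_mul, Finsupp.add_apply, Finsupp.smul_apply, nsmul_eq_mul]
  have hp0 : (0 : ℤ) < p := by exact_mod_cast hp.pos
  push_cast
  constructor <;> intro h <;> nlinarith

theorem galF_mem_V {m : ℕ} {τ : GQ} (hτ : τ ∈ C.H) {φ : FB (p * M)} (hφ : φ ∈ K.V m) :
    galF (p * M) τ φ ∈ K.V m := by
  rw [mem_V] at hφ ⊢
  have hj : galF (p * M) τ (upF M p (jM M)) = upF M p (jM M) := by
    rw [galF_upF, galF_jM]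
  have h := galF_mem_poles (σ := τ) (p * M) hj hφ
  rwa [map_mul, map_pow, K.fix τ hτ] at h

/-- The reductions of the elements of `V m` divisible by `π ^ k` on the second component. -/
def Im (k : ℤ) (m : ℕ) : Submodule (Res A) (Fin 2 → LaurentSeries (Res A)) :=
  redImage A ((K.V m).map (tw hpM C.π k))

theorem exists_finrank_V :
    ∃ m₀ : ℕ, ∀ m, m₀ ≤ m → (Module.finrank QBar (K.V m) : ℤ) =
      m * dedekindPsi (p * M) + 1 - genusFF QBar (FB (p * M)) := by
  obtain ⟨c, hc⟩ := FF.exists_ell_eq (K := QBar) (F := FB (p * M))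
  refine ⟨c.toNat, fun m hm => ?_⟩
  have h := hc (K.D + m • FF.poles QBar (upF M p (jM M)))
  rw [map_add, map_nsmul, K.degree_D, degree_poles_upF_jM, zero_add, nsmul_eq_mul] at h
  refine h ?_
  have h1 : (1 : ℤ) ≤ dedekindPsi (p * M) := by exact_mod_cast dedekindPsi_pos (p * M)
  nlinarith [Int.self_le_toNat c, (by exact_mod_cast hm : ((c.toNat : ℕ) : ℤ) ≤ m)]

/-- The reductions are spanned by those of fixed functions, and their space has full dimension. -/
theorem Im_spec (hA : A.LiesOverPrime p) (k : ℤ) (m : ℕ) :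
    FiniteDimensional (Res A) (K.Im k m) ∧
    Module.finrank (Res A) (K.Im k m) = Module.finrank QBar (K.V m) ∧
    ∀ r ∈ K.Im k m, ∃ φ ∈ K.V m, (∀ τ ∈ C.H, galF (p * M) τ φ = φ) ∧
      ∃ h : ∀ s, tw hpM C.π k φ s ∈ locS A, ∀ s, redL A ⟨_, h s⟩ = r s := by
  classical
  have hp : p.Prime := Fact.out
  have hVfin : FiniteDimensional QBar (K.V m) := by unfold V; infer_instance
  -- a basis `b` of `V m` fixed by `C.H`; the span `W` over `C.K` of its twisted expansions
  obtain ⟨b, hb, hbi, hbfix⟩ := exists_fixed_basis (C.H : Set GQ) (K.V m)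
    fun τ hτ x hx => K.galF_mem_V hτ hx
  let W : Submodule C.K (Fin 2 → LSer) :=
    Submodule.span C.K (Set.range fun i => tw hpM C.π k (b i))
  have hWi : LinearIndependent C.K fun i => tw hpM C.π k (b i) := by
    have h := hbi.map' (tw hpM C.π k) (LinearMap.ker_eq_bot.mpr (tw_injective hpM C.π k))
    exact h.restrict_scalars fun c d hcd => Subtype.ext (by simpa using hcd)
  have hWdim : Module.finrank C.K W = Module.finrank QBar (K.V m) := by
    rw [finrank_span_eq_card hWi, Fintype.card_fin]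
  have hWmem : ∀ x ∈ W, ∃ φ ∈ K.V m, (∀ τ ∈ C.H, galF (p * M) τ φ = φ) ∧ tw hpM C.π k φ = x := by
    intro x hx
    induction hx using Submodule.span_induction with
    | mem x hx =>
      obtain ⟨i, rfl⟩ := hx
      exact ⟨b i, hb i, hbfix i, rfl⟩
    | zero => exact ⟨0, zero_mem _, fun τ _ => map_zero _, map_zero _⟩
    | add x y _ _ hx hy =>
      obtain ⟨φ, hφ, hφf, rfl⟩ := hx
      obtain ⟨ψ, hψ, hψf, rfl⟩ := hy
      exact ⟨φ + ψ, add_mem hφ hψ, fun τ hτ => by rw [map_add, hφf τ hτ, hψf τ hτ], map_add _ _ _⟩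
    | smul c x _ hx =>
      obtain ⟨φ, hφ, hφf, rfl⟩ := hx
      refine ⟨(c : QBar) • φ, Submodule.smul_mem _ _ hφ, fun τ hτ => ?_, ?_⟩
      · rw [Algebra.smul_def, map_mul, hφf τ hτ]
        refine congrArg (· * φ) ?_
        rw [arithmeticRingAut_algebraMap]
        exact congrArg _ ((C.mem_K).mp c.2 τ hτ)
      · rw [map_smul]
        rfl
  have : FiniteDimensional C.K W := FiniteDimensional.span_of_finite _ (Set.finite_range _)
  have : FiniteDimensional QBar ((K.V m).map (tw hpM C.π k)) := Module.Finite.map _ _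
  have hdimmap : Module.finrank QBar ((K.V m).map (tw hpM C.π k)) =
      Module.finrank QBar (K.V m) :=
    (Submodule.equivMapOfInjective _ (tw_injective hpM C.π k) _).finrank_eq.symm
  -- the reduced space is spanned by the reductions of as many integral elements `w` of `W`
  obtain ⟨w, h, hwW, hwi, hspan⟩ := redImage_eq_span hA hp ((K.V m).map (tw hpM C.π k)) W
    (fun x hx => by
      obtain ⟨φ, hφ, -, rfl⟩ := hWmem x hx
      exact ⟨φ, hφ, rfl⟩)
    (by rw [hdimmap, hWdim]) fun x hx s => by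
      obtain ⟨φ, -, hφf, rfl⟩ := hWmem x hx
      refine C.fracOver hA hp (mul_mem (algebraMap_mem_fracS _) (iota2_fracS M p hpM s φ))
        ((CoefField.fix_algebraMap fun τ hτ => ?_).mul fun τ hτ => by rw [← iota2_galF, hφf τ hτ])
      fin_cases s
      · exact map_one τ
      · show τ (C.π ^ (-k)) = C.π ^ (-k)
        rw [map_zpow₀, C.π_fixed τ hτ]
  refine ⟨?_, ?_, fun r hr => ?_⟩
  · rw [Im, hspan]
    exact FiniteDimensional.span_of_finite _ (Set.finite_range _)
  · rw [Im, hspan, finrank_span_eq_card hwi, Fintype.card_fin, hdimmap]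
  · rw [Im, hspan, Submodule.mem_span_range_iff_exists_fun] at hr
    obtain ⟨c, rfl⟩ := hr
    -- lift the coefficients of `r` to constants fixed by inertia
    choose a ha hafix hares using fun i => exists_inertiaFixed_lift hA hp (c i)
    choose φ hφ hφf hφw using fun i => hWmem _ (hwW i)
    refine ⟨∑ i, a i • φ i, Submodule.sum_mem _ fun i _ => Submodule.smul_mem _ _ (hφ i),
      fun τ hτ => ?_, ?_⟩
    · rw [map_sum]
      refine Finset.sum_congr rfl fun i _ => ?_
      rw [Algebra.smul_def, map_mul, hφf i τ hτ, arithmeticRingAut_algebraMap]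
      exact congrArg (fun x => algebraMap QBar (FB (p * M)) x * φ i)
        (hafix i τ (C.le_inertia hτ))
    have e : ∀ s, tw hpM C.π k (∑ i, a i • φ i) s =
        ∑ i, algebraMap QBar LSer (a i) * w i s := fun s => by
      rw [map_sum, Finset.sum_apply]
      refine Finset.sum_congr rfl fun i _ => ?_
      rw [map_smul, Pi.smul_apply, smul_eq_algebraMap_mul, hφw]
      rfl
    have hm : ∀ i s, algebraMap QBar LSer (a i) * w i s ∈ locS A := fun i s =>
      mul_mem (algebraMap_mem_locS (ha i)) (h i s)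
    refine ⟨fun s => by rw [e s]; exact sum_mem fun i _ => hm i s, fun s => ?_⟩
    rw [redL_congr _ (sum_mem fun i _ => hm i s) (e s),
      show (⟨∑ i, algebraMap QBar LSer (a i) * w i s, sum_mem fun i _ => hm i s⟩ : locS A) =
        ∑ i, ⟨_, hm i s⟩ from Subtype.ext (by push_cast; rfl),
      map_sum, Finset.sum_apply]
    refine Finset.sum_congr rfl fun i _ => ?_
    obtain ⟨h', he⟩ := redL_const_mul (ha i) (h i s)
    rw [show (⟨_, hm i s⟩ : locS A) = ⟨_, h'⟩ from rfl, he, hares i, Pi.smul_apply,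
      ← HahnSeries.C_mul_eq_smul, algebraMap_laurentSeries_eq_single]
    rfl

end Kum

end Fermat.Agent.RT.MazurP

end
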