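import Fermat.Agent.RT.MazurP.Link

/-!
# Fixed lifts of pairs of functions of level `M`

Given a vertical unit with simple zeros (`VUnit.Simple`), every pair of nonzero functions of level
`M` over the residue field is the pair of normalised reductions of a function with coefficients in
the given field, with any difference of orders.
-/

set_option autoImplicit false

noncomputable section

namespace Fermat.Agent.RT.MazurP

open ModularCurve AlgebraicCurve Fermat.Agent.Semistable Fermat.Agent.Arith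

variable {A : ValuationSubring QBar} {p M : ℕ} [Fact p.Prime] [NeZero M]
variable {hpM : ¬ p ∣ M} {C : CoefField A p}

/-- A fixed element of `locS` with zero reduction is divisible by the uniformiser. -/
theorem CoefField.inv_π_mul_mem (hA : A.LiesOverPrime p) {x : LSer} (hx : x ∈ locS A)
    (hfix : C.Fix x) (h : redL A ⟨x, hx⟩ = 0) : algebraMap QBar LSer C.π⁻¹ * x ∈ locS A := by
  have hp : p.Prime := Fact.out
  rcases eq_or_ne x 0 with h0 | h0
  · rw [h0, mul_zero]; exact zero_mem _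
  obtain ⟨hg, hgne⟩ := C.gord_spec hA hp (locS_le_fracS hx) h0 hfix
  have hnn := C.gord_nonneg_of_mem_locS hA hp hx h0 hfix
  generalize C.gord x = g at hg hgne hnn
  have hg1 : 1 ≤ g := by
    by_contra hlt
    obtain rfl : g = 0 := by omega
    refine hgne ?_
    rw [redL_congr hg hx (by rw [neg_zero, zpow_zero, map_one, one_mul])]
    exact h
  obtain ⟨e, rfl⟩ : ∃ e : ℕ, g = 1 + e := ⟨(g - 1).toNat, by omega⟩
  have h2 := mul_mem (algebraMap_mem_locS (pow_mem (mem_of_mem_nonunits C.π_nonunit) e)) hg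
  rwa [← mul_assoc, ← map_mul, ← zpow_natCast, ← zpow_add₀ C.π_ne_zero,
    show (e : ℤ) + -(1 + (e : ℤ)) = -1 by omega, zpow_neg_one] at h2

/-- Iterating the divisibility. -/
theorem CoefField.inv_π_pow_mul_mem (hA : A.LiesOverPrime p) {x : LSer} (hx : x ∈ locS A)
    (hfix : C.Fix x) (h : redL A ⟨x, hx⟩ = 0) (n : ℕ) :
    algebraMap QBar LSer (C.π ^ n)⁻¹ * x ^ n ∈ locS A := by
  rw [← inv_pow, map_pow, ← mul_pow]
  exact pow_mem (C.inv_π_mul_mem hA hx hfix h) n

variable [CharP (Res A) p] [FF.IsFunctionField (Res A) (KM A M)]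

/-- Fixed functions with prescribed first reduction, vanishing on the second component, and the
same with the components exchanged. -/
theorem exists_side_lift (hA : A.LiesOverPrime p) (hM : (M : Res A) ≠ 0) (V : VUnit A hpM)
    (hV : V.Simple) :
    ∃ E : ℕ → Divisor (Res A) (KM A M), ∃ m₀ : ℕ, ∀ m, m₀ ≤ m →
      (m : ℤ) - (∑ P ∈ (Kum.one C hpM).S₀ V, (Kum.one C hpM).lA V 1 P) ≤ Divisor.degree (E m) ∧
      ∀ a ∈ riemannRochSpace (E m), ∀ s : Fin 2, ∃ φ : FB (p * M),
        (∀ τ ∈ C.H, galF (p * M) τ φ = φ) ∧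
        ∃ h : ∀ t, iota2 M p hpM t φ ∈ locS A,
          ∀ t, redL A ⟨_, h t⟩ = if t = s then (a : LaurentSeries (Res A)) else 0 := by
  classical
  -- the count for the trivial Kummer function
  set T := Kum.one C hpM
  have hT : T.δ = 0 := rfl
  have hk : 0 ≤ (p : ℤ) * 0 + T.δ := by rw [hT]; simp
  obtain ⟨m₀, hm₀⟩ := ((T.count_equalities V hA hM hV).2.2 0 hk).2
  refine ⟨fun m => T.EA V 1 m, m₀, fun m hm => ⟨?_, fun a ha s => ?_⟩⟩
  · rw [T.degree_EA V hM]
    have hψ : (1 : ℤ) ≤ dedekindPsi M := by exact_mod_cast dedekindPsi_pos M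
    have : (m : ℤ) ≤ m * dedekindPsi M := le_mul_of_one_le_right (by positivity) hψ
    linarith
  have ha' : (a : LaurentSeries (Res A)) ∈ T.Pr ((0 : ℤ) + 1) m 0 := by
    rw [(hm₀ m hm).1, mem_LS]
    simpa using ha
  -- `(a, 0)` is the reduction of a fixed function
  have hr := ((T.mem_ker_proj_one hA 0 m ![(a : LaurentSeries (Res A)), 0]).mpr ⟨rfl, ha'⟩).1
  obtain ⟨φ, -, hφf, h, hred⟩ := (T.Im_spec hA 0 m).2.2 _ hr
  have e : ∀ t, tw hpM C.π 0 φ t = iota2 M p hpM t φ := fun t => by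
    fin_cases t
    · exact tw_zero_apply _ _ _ _
    · show tw hpM C.π 0 φ 1 = iota2 M p hpM 1 φ
      rw [tw_one_apply, neg_zero, zpow_zero, map_one, one_mul]
  have hl : ∀ t, iota2 M p hpM t φ ∈ locS A := fun t => e t ▸ h t
  have hlr : ∀ t, redL A ⟨_, hl t⟩ = ![(a : LaurentSeries (Res A)), 0] t := fun t => by
    rw [← hred t]; exact redL_congr _ _ (e t).symm
  rcases eq_or_ne s 0 with rfl | hs
  · refine ⟨φ, hφf, hl, fun t => ?_⟩
    rw [hlr t]
    fin_cases t <;> simp
  obtain rfl : s = 1 := by omega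
  -- the Atkin-Lehner involution exchanges the sides
  have hw0 : iota2 M p hpM 0 (wEquiv p M hpM φ) = iota2 M p hpM 1 φ := by
    rw [iota2_zero, iota2_one]
  have hw1 : iota2 M p hpM 1 (wEquiv p M hpM φ) = iota2 M p hpM 0 φ := by
    rw [iota2_one, iota2_zero, wEquiv_wEquiv]
  refine ⟨wEquiv p M hpM φ, fun τ hτ => ?_, fun t => ?_, fun t => ?_⟩
  · show arithmeticRingAut (modularFunctionFieldFull (p * M)) τ (wEquiv p M hpM φ) = _
    rw [← wEquiv_galois]
    exact congrArg _ (hφf τ hτ)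
  · fin_cases t
    · show iota2 M p hpM 0 (wEquiv p M hpM φ) ∈ _
      rw [hw0]; exact hl 1
    · show iota2 M p hpM 1 (wEquiv p M hpM φ) ∈ _
      rw [hw1]; exact hl 0
  · fin_cases t
    · simp only [Fin.zero_eta]
      rw [redL_congr _ (hl 1) hw0, hlr 1]
      simp
    · simp only [Fin.mk_one]
      rw [redL_congr _ (hl 0) hw1, hlr 0]
      simp

omit [CharP (Res A) p] [NeZero M] in
/-- For a divisor of large degree there is a nonzero function in its Riemann–Roch space whose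
products with two given functions are in that space as well. -/
private theorem exists_common_multiplier (z : Fin 2 → KM A M) :
    ∃ c₀ : ℤ, ∀ D : Divisor (Res A) (KM A M), c₀ ≤ Divisor.degree D → ∃ b : KM A M,
      b ≠ 0 ∧ b ∈ riemannRochSpace D ∧ ∀ s, z s * b ∈ riemannRochSpace D := by
  classical
  have := residueField_isAlgClosed A
  obtain ⟨cE, hcE⟩ := FF.exists_ell_eq (K := Res A) (F := KM A M)
  set Q := FF.poles (Res A) (z 0) + FF.poles (Res A) (z 1)
  refine ⟨max cE 0 + Divisor.degree Q + genusFF (Res A) (KM A M) + 1, fun D hD => ?_⟩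
  have hmax := le_max_left cE 0
  have hmax' := le_max_right cE 0
  have hell := hcE (D - Q) (by rw [map_sub]; omega)
  obtain ⟨b, hb0, hb⟩ := FF.exists_ne_zero_of_ell_pos (D := D - Q) (by
    rw [hell, map_sub]; omega)
  have hbD : b ∈ riemannRochSpace (D - Q) := by
    rw [FF.mem_riemannRochSpace']
    intro v
    refine FF.mem_ordGe_of_le v ?_
    have h0 := Finsupp.le_def.mp hb v
    simp only [Finsupp.coe_zero, Pi.zero_apply, Finsupp.add_apply, FF.div_apply] at h0
    omega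
  refine ⟨b, hb0, FF.riemannRochSpace_mono
    (sub_le_self _ (add_nonneg (FF.poles_nonneg _) (FF.poles_nonneg _))) hbD, fun s => ?_⟩
  rw [FF.mem_riemannRochSpace'] at hbD ⊢
  intro P
  have h1 := FF.mul_mem_ordGe P (RedTorsion.poles_mem_ordGe P (z s)) (hbD P)
  refine FF.ordGe_anti P ?_ h1
  rw [Finsupp.sub_apply, Finsupp.add_apply]
  have := Finsupp.le_def.mp (FF.poles_nonneg (K := Res A) (z 0)) P
  have := Finsupp.le_def.mp (FF.poles_nonneg (K := Res A) (z 1)) P
  fin_cases s <;> simp only [Finsupp.coe_zero, Pi.zero_apply, Fin.zero_eta, Fin.mk_one] at * <;>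
    omega

omit [CharP (Res A) p] [FF.IsFunctionField (Res A) (KM A M)] [NeZero M] in
/-- If `y` is fixed with zero reduction and `1 ≤ i + N`, then `π ^ i * x * y ^ N` is integral
with zero reduction. -/
private theorem redL_side_other (hA : A.LiesOverPrime p) {x y : LSer} (hx : x ∈ locS A)
    (hy : y ∈ locS A) (hfix : C.Fix y) (hyr : redL A ⟨y, hy⟩ = 0) {N : ℕ} {i : ℤ}
    (hi : 1 ≤ i + N) :
    ∃ h : algebraMap QBar LSer (C.π ^ i) * (x * y ^ N) ∈ locS A, redL A ⟨_, h⟩ = 0 := by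
  have hcoef : C.π ^ (i + N) ∈ A.nonunits := by
    obtain ⟨j, hj⟩ : ∃ j : ℕ, i + (N : ℤ) = j + 1 := ⟨(i + (N : ℤ) - 1).toNat, by omega⟩
    rw [hj, zpow_add₀ C.π_ne_zero, zpow_one, zpow_natCast]
    exact nonunits_mul_left (pow_mem (mem_of_mem_nonunits C.π_nonunit) j) C.π_nonunit
  obtain ⟨ho, hor⟩ := redL_const_mul (mem_of_mem_nonunits hcoef)
    (mul_mem hx (C.inv_π_pow_mul_mem hA hy hfix hyr N))
  rw [(residue_eq_zero_iff _).mpr hcoef, map_zero, zero_mul] at hor
  have e : algebraMap QBar LSer (C.π ^ i) * (x * y ^ N) =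
      algebraMap QBar LSer (C.π ^ (i + N)) *
        (x * (algebraMap QBar LSer (C.π ^ N)⁻¹ * y ^ N)) := by
    have : algebraMap QBar LSer (C.π ^ N) ≠ 0 :=
      (_root_.map_ne_zero _).mpr (pow_ne_zero _ C.π_ne_zero)
    rw [zpow_add₀ C.π_ne_zero, zpow_natCast, map_mul, map_inv₀]
    field_simp
  exact ⟨by rw [e]; exact ho, (redL_congr _ ho e).trans hor⟩

omit [CharP (Res A) p] [FF.IsFunctionField (Res A) (KM A M)] [NeZero M] [Fact p.Prime] in
/-- If `x` reduces to `a * c` and `y` to `c ≠ 0`, then `x / y` is integral and reduces to `a`. -/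
private theorem redL_mul_inv {x y : LSer} (hx : x ∈ locS A) (hy : y ∈ locS A)
    {a c : LaurentSeries (Res A)} (hxr : redL A ⟨x, hx⟩ = a * c) (hyr : redL A ⟨y, hy⟩ = c)
    (hc : c ≠ 0) : ∃ h : x * y⁻¹ ∈ locS A, redL A ⟨_, h⟩ = a := by
  obtain ⟨hi, hir⟩ := inv_mem_locS hy (by rwa [hyr])
  exact ⟨mul_mem hx hi, by rw [redL_mul' hx hi, hxr, hir, hyr, mul_inv_cancel_right₀ hc]⟩

/-- Prescribed normalised reductions and difference of orders. -/
theorem exists_fixed_pair (hA : A.LiesOverPrime p) (hM : (M : Res A) ≠ 0) (V : VUnit A hpM)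
    (hV : V.Simple) (z : Fin 2 → KM A M) (hz : ∀ s, z s ≠ 0) (d : ℤ) :
    ∃ φ : FB (p * M), φ ≠ 0 ∧ (∀ τ ∈ C.H, galF (p * M) τ φ = φ) ∧
      ∀ s, ∃ h : algebraMap QBar LSer (C.π ^ (-(![0, d] s))) * iota2 M p hpM s φ ∈ locS A,
        redL A ⟨_, h⟩ = (z s : LaurentSeries (Res A)) := by
  classical
  obtain ⟨E, m₀, hE⟩ := exists_side_lift (C := C) hA hM V hV
  obtain ⟨c₀, hc₀⟩ := exists_common_multiplier z
  set Z := ∑ P ∈ (Kum.one C hpM).S₀ V, (Kum.one C hpM).lA V 1 P
  set m := m₀ + (c₀ + Z).toNat with hm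
  obtain ⟨hdeg, hlift⟩ := hE m (by omega)
  have htn := Int.self_le_toNat (c₀ + Z)
  obtain ⟨b, hb0, hbE, hzb⟩ := hc₀ (E m) (by omega)
  choose ψ hψf hψ hψr using fun s => hlift b hbE s
  choose χ hχf hχ hχr using fun s => hlift (z s * b) (hzb s) s
  -- `ψ s`, `χ s` reduce to `b`, `z s * b` on the side `s` and to zero on the other. As `N > |d|`,
  -- in `φ = (χ 0 ψ 0 ^ N + π ^ d χ 1 ψ 1 ^ N) / (ψ 0 ^ (N + 1) + ψ 1 ^ (N + 1))` the foreign
  -- summand vanishes on either side after normalising, leaving `z s * b ^ (N + 1) / b ^ (N + 1)`.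
  set N : ℕ := d.natAbs + 1 with hN
  set num : Fin 2 → FB (p * M) := fun s =>
    algebraMap QBar (FB (p * M)) (C.π ^ (![0, d] s)) * (χ s * ψ s ^ N) with hnum
  set φ : FB (p * M) := (num 0 + num 1) / (ψ 0 ^ (N + 1) + ψ 1 ^ (N + 1)) with hφ
  have hψfix : ∀ s t, C.Fix (iota2 M p hpM t (ψ s)) := fun s t τ hτ => by
    rw [← iota2_galF, hψf s τ hτ]
  have hπfix : ∀ (n : ℤ), ∀ τ ∈ C.H, τ (C.π ^ n) = C.π ^ n := fun n τ hτ => by
    rw [map_zpow₀, C.π_fixed τ hτ]
  -- the reductions of numerator and denominator on either side `t`, `u` being the other one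
  have hside : ∀ t, ∃ hn : algebraMap QBar LSer (C.π ^ (-(![0, d] t))) *
      iota2 M p hpM t (num 0 + num 1) ∈ locS A,
      redL A ⟨_, hn⟩ = ((z t * b * b ^ N : KM A M) : LaurentSeries (Res A)) ∧
      ∃ hd : iota2 M p hpM t (ψ 0 ^ (N + 1) + ψ 1 ^ (N + 1)) ∈ locS A,
        redL A ⟨_, hd⟩ = ((b * b ^ N : KM A M) : LaurentSeries (Res A)) := by
    intro t
    obtain ⟨u, hu, hcases⟩ : ∃ u : Fin 2, u ≠ t ∧ ∀ x : Fin 2 → FB (p * M), x 0 + x 1 = x t
        + x u := by
      fin_cases t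
      · exact ⟨1, by decide, fun x => rfl⟩
      · exact ⟨0, by decide, fun x => add_comm _ _⟩
    have hψu : redL A ⟨_, hψ u t⟩ = 0 := by rw [hψr, if_neg (Ne.symm hu)]
    have hterm : algebraMap QBar LSer (C.π ^ (-(![0, d] t))) * iota2 M p hpM t (num t) =
        iota2 M p hpM t (χ t) * iota2 M p hpM t (ψ t) ^ N := by
      rw [hnum, map_mul, map_mul, map_pow, AlgHom.commutes, ← mul_assoc, ← map_mul,
        ← zpow_add₀ C.π_ne_zero, neg_add_cancel, zpow_zero, map_one, one_mul]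
    obtain ⟨ho, hor⟩ := redL_side_other hA (hχ u t) (hψ u t) (hψfix u t) hψu (N := N)
      (i := -(![0, d] t) + ![0, d] u) (by
        have := le_abs_self d
        have := neg_le_abs d
        rcases (by fin_cases t <;> simp : t = 0 ∨ t = 1) with rfl | rfl <;>
          rcases (by fin_cases u <;> simp : u = 0 ∨ u = 1) with rfl | rfl <;>
            first | exact absurd rfl hu | (simp [hN]; omega))
    have hm := mul_mem (hχ t t) (pow_mem (hψ t t) N)
    have esum : algebraMap QBar LSer (C.π ^ (-(![0, d] t))) * iota2 M p hpM t (num 0 + num 1) =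
        iota2 M p hpM t (χ t) * iota2 M p hpM t (ψ t) ^ N + algebraMap QBar LSer
          (C.π ^ (-(![0, d] t) + ![0, d] u)) *
            (iota2 M p hpM t (χ u) * iota2 M p hpM t (ψ u) ^ N) := by
      rw [hcases num, map_add, mul_add, hterm, hnum, map_mul, map_mul, map_pow, AlgHom.commutes,
        ← mul_assoc (algebraMap QBar LSer _) (algebraMap QBar LSer _), ← map_mul,
        ← zpow_add₀ C.π_ne_zero]
    refine ⟨by rw [esum]; exact add_mem hm ho, ?_, ?_⟩
    · rw [redL_congr _ (add_mem hm ho) esum]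
      refine (map_add (redL A) (⟨_, hm⟩ : locS A) ⟨_, ho⟩).trans ?_
      rw [hor, add_zero, redL_mul' (hχ t t) (pow_mem (hψ t t) N), redL_pow' (hψ t t), hχr, hψr,
        if_pos rfl, if_pos rfl]
      rfl
    · have ed : iota2 M p hpM t (ψ 0 ^ (N + 1) + ψ 1 ^ (N + 1)) =
          iota2 M p hpM t (ψ t) ^ (N + 1) + iota2 M p hpM t (ψ u) ^ (N + 1) := by
        rw [hcases (fun s => ψ s ^ (N + 1)), map_add, map_pow, map_pow]
      have hd' := add_mem (pow_mem (hψ t t) (N + 1)) (pow_mem (hψ u t) (N + 1))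
      refine ⟨by rw [ed]; exact hd', ?_⟩
      rw [redL_congr _ hd' ed]
      refine (map_add (redL A) (⟨_, pow_mem (hψ t t) (N + 1)⟩ : locS A)
        ⟨_, pow_mem (hψ u t) (N + 1)⟩).trans ?_
      rw [redL_pow' (hψ t t), redL_pow' (hψ u t), hψu, hψr, if_pos rfl,
        zero_pow (Nat.succ_ne_zero N), add_zero, ← pow_succ']
      rfl
  -- so the quotient reduces to `z t`
  have key : ∀ t, ∃ h : algebraMap QBar LSer (C.π ^ (-(![0, d] t))) * iota2 M p hpM t φ ∈ locS A,
      redL A ⟨_, h⟩ = (z t : LaurentSeries (Res A)) := by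
    intro t
    obtain ⟨hn, hnr, hd, hdr⟩ := hside t
    have hne : b * b ^ N ≠ 0 := mul_ne_zero hb0 (pow_ne_zero _ hb0)
    have e : algebraMap QBar LSer (C.π ^ (-(![0, d] t))) * iota2 M p hpM t φ =
        algebraMap QBar LSer (C.π ^ (-(![0, d] t))) * iota2 M p hpM t (num 0 + num 1) *
          (iota2 M p hpM t (ψ 0 ^ (N + 1) + ψ 1 ^ (N + 1)))⁻¹ := by
      rw [hφ, map_div₀, div_eq_mul_inv, mul_assoc]
    obtain ⟨h, hr⟩ := redL_mul_inv hn hd (a := (z t : LaurentSeries (Res A)))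
      (by rw [hnr]; push_cast; rw [mul_assoc]) hdr (fun h => hne (Subtype.ext h))
    exact ⟨e ▸ h, (redL_congr _ h e).trans hr⟩
  refine ⟨φ, fun h0 => ?_, fun τ hτ => ?_, key⟩
  · obtain ⟨h, hr⟩ := key 0
    refine hz 0 (Subtype.ext ?_)
    rw [← hr, redL_congr h (zero_mem _) (by rw [h0, map_zero, mul_zero])]
    exact map_zero (redL A)
  · simp only [hφ, hnum, map_div₀, map_add, map_mul, map_pow, hψf _ τ hτ, hχf _ τ hτ,
      arithmeticRingAut_algebraMap]
    rw [hπfix _ τ hτ, hπfix _ τ hτ]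

end Fermat.Agent.RT.MazurP

end
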