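import Fermat.Agent.RT.MazurP.Cong

/-!
# The position of the reductions at the zeros of the reduced unit

`SigmaRel` records that the wild generator moves a Kummer function `f` to `κ f f₀ q ^ p`. Up to
powers of `j - c`, the reduced spaces are then stable under the first reductions of `(q - 1) / π`,
shifted by the exponent on the second side (`SigmaRel.exists_mul_mem`); `RT/MazurP/Node` deduces
that these are constants and the congruence at the zeros of the reduced unit.
-/

set_option autoImplicit false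

noncomputable section

namespace Fermat.Agent.RT.MazurP

open ModularCurve AlgebraicCurve Fermat.Agent.Semistable Fermat.Agent.Arith

attribute [-instance] IsLocalRing.ResidueField.algebraOfIsIntegral IsScalarTower.of_algHom
  RingHom.Finite.instFinite
attribute [local instance high] SubalgebraClass.toAlgebra
attribute [local instance 20000] Fermat.Agent.Semistable.instAlgebraKM

variable {A : ValuationSubring QBar} {p M : ℕ} [Fact p.Prime] [NeZero M]
variable {hpM : ¬ p ∣ M}

/-! ## The relation of the wild generator -/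

/-- The action of the wild generator on a Kummer function, with its normalised ingredients. -/
structure SigmaRel (W : Wild A p) (K : Kum hpM W.C) where
  /-- The factor coming from the fixed class. -/
  f₀ : FB (p * M)
  f₀_ne : f₀ ≠ 0
  f₀_dvd : ∀ v : Place QBar (FB (p * M)), (p : ℤ) ∣ v.ord f₀
  f₀_fix : ∀ τ ∈ W.C₁.H, galF (p * M) τ f₀ = f₀
  f₀_red : ∀ s, ∃ h : iota2 M p hpM s f₀ ∈ locS A, redL A ⟨_, h⟩ = 1
  /-- The `p`-th root factor. -/
  q : FB (p * M)
  q_fix : ∀ τ ∈ W.C.H, galF (p * M) τ q = q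
  /-- `(q - 1) / π` on either side. -/
  y : Fin 2 → LSer
  y_mem : ∀ s, y s ∈ locS A
  q_eq : ∀ s, iota2 M p hpM s q = 1 + algebraMap QBar LSer W.C.π * y s
  /-- The constant. -/
  κ : QBar
  κ_ne : κ ≠ 0
  rel : galF (p * M) W.σ K.f = algebraMap QBar (FB (p * M)) κ * K.f * f₀ * q ^ p

/-- The embeddings with no twist. -/
theorem tw_zero (C : CoefField A p) (hpM : ¬ p ∣ M) (φ : FB (p * M)) (s : Fin 2) :
    tw hpM C.π 0 φ s = iota2 M p hpM s φ := by
  fin_cases s
  · exact tw_zero_apply _ _ _ _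
  · show tw hpM C.π 0 φ 1 = iota2 M p hpM 1 φ
    rw [tw_one_apply, neg_zero, zpow_zero, map_one, one_mul]

namespace SigmaRel

variable {W : Wild A p} {K : Kum hpM W.C} (R : SigmaRel W K)

/-- The product with the fixed factor has the same reductions. -/
def twist : Kum hpM W.C where
  f := K.f * R.f₀
  f_ne := mul_ne_zero K.f_ne R.f₀_ne
  dvd v := by rw [v.ord_mul K.f_ne R.f₀_ne]; exact dvd_add (K.dvd v) (R.f₀_dvd v)
  fix τ hτ := by rw [map_mul, K.fix τ hτ, R.f₀_fix τ (W.le hτ)]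
  v := K.v
  fb := K.fb
  fb_ne := K.fb_ne
  spec s := by
    obtain ⟨h, hr⟩ := K.spec s
    obtain ⟨h₀, hr₀⟩ := R.f₀_red s
    have e : algebraMap QBar LSer (W.C.π ^ (-K.v s)) * iota2 M p hpM s (K.f * R.f₀) =
        algebraMap QBar LSer (W.C.π ^ (-K.v s)) * iota2 M p hpM s K.f *
          iota2 M p hpM s R.f₀ := by
      rw [map_mul, mul_assoc]
    exact ⟨by rw [e]; exact mul_mem h h₀,
      by rw [redL_congr _ (mul_mem h h₀) e, redL_mul' h h₀, hr, hr₀, mul_one]⟩

/-- The fixed factor over the tame field. -/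
def tame : Kum hpM W.C₁ where
  f := R.f₀
  f_ne := R.f₀_ne
  dvd := R.f₀_dvd
  fix := R.f₀_fix
  v := 0
  fb := 1
  fb_ne _ := one_ne_zero
  spec s := by
    obtain ⟨h₀, hr₀⟩ := R.f₀_red s
    have e : algebraMap QBar LSer (W.C₁.π ^ (-(0 : Fin 2 → ℤ) s)) * iota2 M p hpM s R.f₀ =
        iota2 M p hpM s R.f₀ := by
      rw [Pi.zero_apply, neg_zero, zpow_zero, map_one, one_mul]
    exact ⟨by rw [e]; exact h₀, (redL_congr _ h₀ e).trans hr₀⟩

/-- The reduction of `(q - 1) / π` is a function of level `M`. -/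
theorem exists_red_y [CharP (Res A) p] (hA : A.LiesOverPrime p) (hM : (M : Res A) ≠ 0)
    (s : Fin 2) :
    ∃ r : KM A M, redL A ⟨_, R.y_mem s⟩ = (r : LaurentSeries (Res A)) := by
  by_cases h0 : redL A ⟨_, R.y_mem s⟩ = 0
  · exact ⟨0, h0⟩
  have e : algebraMap QBar LSer W.C.π⁻¹ * iota2 M p hpM s (R.q - 1) = R.y s := by
    rw [map_sub, map_one, R.q_eq, add_sub_cancel_left, ← mul_assoc, ← map_mul,
      inv_mul_cancel₀ W.C.π_ne_zero, map_one, one_mul]
  exact ⟨⟨_, isRed_mem_KM p M hpM hA hM (x := R.q - 1) (s := s) ⟨h0, W.C.π⁻¹,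
    inv_ne_zero W.C.π_ne_zero, by rw [e]; exact R.y_mem s, redL_congr _ _ e⟩⟩, rfl⟩

end SigmaRel

variable [CharP (Res A) p] [FF.IsFunctionField (Res A) (KM A M)]
variable {W : Wild A p} {K : Kum hpM W.C}

/-! ## Powers of `j - c` -/

/-- The pair of powers of `j - c`. -/
def jPair (A : ValuationSubring QBar) (p M : ℕ) [NeZero M] (c n : ℕ) (s : Fin 2) : KM A M :=
  (jK A M ^ sideDeg p s - c) ^ n

omit [CharP (Res A) p] [FF.IsFunctionField (Res A) ↥(KM A M)] in
/-- The action of the wild generator on a twisted series. -/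
private theorem exists_σ_tw (W : Wild A p) (hA : A.LiesOverPrime p) (k : ℕ) {ξ : FB (p * M)}
    (hξf : ∀ τ ∈ W.C.H, galF (p * M) τ ξ = ξ) {s : Fin 2}
    (hξm : tw hpM W.C.π k ξ s ∈ locS A) :
    ∃ z ∈ locS A, tw hpM W.C.π k (galF (p * M) W.σ ξ) s =
      tw hpM W.C.π k ξ s * (1 + algebraMap QBar LSer W.C.π * algebraMap QBar LSer
        ((if s = 0 then 0 else (k : QBar)) * (W.u : QBar))) +
          algebraMap QBar LSer W.C.π ^ 2 * z := by
  have hp : p.Prime := Fact.out
  obtain ⟨ω, hω, hωe⟩ := W.exists_σ_π_pow k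
  set α : LSer := algebraMap QBar LSer W.C.π with hα
  obtain ⟨z, hz, ez⟩ := W.exists_σ_locS hA hp hξm (fun τ hτ => by
    rw [tw_apply, map_mul, coeffMap_algebraMap, ← iota2_galF, hξf τ hτ]
    congr 2
    fin_cases s
    · exact map_one τ
    · show τ (W.C.π ^ (-(k : ℤ))) = _
      rw [map_zpow₀, W.C.π_fixed τ hτ]; rfl)
  rw [map_pow, ← hα] at ez
  rcases (by fin_cases s <;> simp : s = 0 ∨ s = 1) with rfl | rfl
  · refine ⟨z, hz, ?_⟩
    simp only [if_true, zero_mul, map_zero, mul_zero, add_zero, mul_one]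
    rw [← ez, tw_zero_apply, tw_zero_apply, iota2_galF]
  · set v : QBar := 1 + (k : QBar) * (W.u : QBar) * W.C.π + ω * W.C.π ^ 2 with hv
    have hvA : algebraMap QBar LSer v ∈ locS A := algebraMap_mem_locS (add_mem (add_mem (one_mem A)
      (mul_mem (mul_mem (natCast_mem A k) W.u.2) (mem_of_mem_nonunits W.C.π_nonunit)))
      (mul_mem hω (pow_mem (mem_of_mem_nonunits W.C.π_nonunit) 2)))
    refine ⟨algebraMap QBar LSer ω * tw hpM W.C.π k ξ 1 + algebraMap QBar LSer v * z,
      add_mem (mul_mem (algebraMap_mem_locS hω) hξm) (mul_mem hvA hz), ?_⟩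
    simp only [one_ne_zero, if_false] at ez ⊢
    have key : tw hpM W.C.π k (galF (p * M) W.σ ξ) 1 = algebraMap QBar LSer v *
        coeffMap (W.σ : QBar →+* QBar) (tw hpM W.C.π k ξ 1) := by
      rw [tw_one_apply, tw_one_apply, iota2_galF, map_mul, coeffMap_algebraMap, ← mul_assoc,
        ← map_mul]
      congr 2
      show _ = v * W.σ (W.C.π ^ (-(k : ℤ)))
      rw [zpow_neg, zpow_natCast, map_inv₀, hωe, mul_inv, mul_left_comm,
        mul_inv_cancel₀ ?_, mul_one]
      intro hv0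
      have := hωe
      rw [hv0, mul_zero, map_eq_zero] at this
      exact pow_ne_zero _ W.C.π_ne_zero this
    rw [key, ez]
    simp only [hv, map_add, map_mul, map_one, map_pow, ← hα]
    ring

/-- The auxiliary power lies in the spaces of poles. -/
private theorem jSub_pow_mem_HN (c n : ℕ) : ((upF M p (jM M) - c) ^ n) ^ p ∈ HN M p (p * n) := by
  have hH1 : upF M p (jM M) - c ∈ HN M p 1 := by
    refine sub_mem (upF_mem_HN M p ?_) ?_
    · rw [RedTorsion.mem_polesSpace]
      intro v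
      refine FF.ordGe_anti v ?_ (RedTorsion.poles_mem_ordGe v (jM M))
      rw [Nat.cast_one, one_mul]
    · rw [← map_natCast (algebraMap QBar (FB (p * M))), ← mul_one (algebraMap QBar (FB (p * M)) _),
        ← Algebra.smul_def]
      exact Submodule.smul_mem _ _ (one_mem_polesSpace _ _)
  have hpow : ∀ {z : FB (p * M)} {a : ℕ}, z ∈ HN M p a → ∀ i : ℕ, z ^ i ∈ HN M p (i * a) :=
    fun {z a} hz i => by
      induction i with
      | zero => rw [pow_zero]; exact one_mem_polesSpace _ _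
      | succ i ih => rw [pow_succ, Nat.succ_mul]; exact mul_mem_polesSpace ih hz
  have := hpow (hpow hH1 n) p
  rwa [mul_one] at this

omit [FF.IsFunctionField (Res A) ↥(KM A M)] in
/-- The auxiliary power and its reductions. -/
private theorem exists_red_jSub_pow (c n : ℕ) (s : Fin 2) :
    ∃ h : iota2 M p hpM s ((upF M p (jM M) - c) ^ n) ∈ locS A,
      redL A ⟨_, h⟩ = (jPair A p M c n s : LaurentSeries (Res A)) := by
  set H : FB (p * M) := (upF M p (jM M) - c) ^ n with hH
  set tj : loc2 A (iota1 M) := ⟨jM M, jM_mem M⟩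
  set x : loc2 A (iota2 M p hpM) := (⟨_, upF_mem_loc2 M p hpM tj.2⟩ - (c : loc2 A _)) ^ n with hx
  have e : (x : FB (p * M)) = H := by rw [hx, hH]; push_cast; rfl
  refine ⟨e ▸ (mem_loc2 _).mp x.2 s, ?_⟩
  rw [redL_congr _ ((mem_loc2 _).mp x.2 s) (by rw [e]), ← red2_apply, hx, map_pow, map_sub,
    map_natCast, red2_upF, Pi.pow_apply, Pi.sub_apply, Pi.natCast_apply, jPair]
  push_cast
  rw [coe_jK]
  fin_cases s
  · simp [sideDeg, tj, red1_jM]
  · simp [sideDeg, tj, red1_jM, ← pow_eq_qExpand_gen_one p]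

omit [CharP (Res A) p] [FF.IsFunctionField (Res A) ↥(KM A M)] in
/-- The difference quotient of `ξ H` under the wild generator lies in the space of `f f₀`. -/
private theorem SigmaRel.diff_mem_V (R : SigmaRel W K) {m n : ℕ} {ξ H u : FB (p * M)}
    (hξ' : ξ ^ p * K.f ∈ HN M p (p * m)) (hHp : H ^ p ∈ HN M p (p * n))
    (huV : u ∈ R.tame.V n) :
    algebraMap QBar (FB (p * M)) W.C.π⁻¹ * (R.q * galF (p * M) W.σ ξ * H - ξ * u) ∈
      R.twist.V (m + n) := by
  have hmn : p * (m + n) = p * m + p * n := mul_add _ _ _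
  rw [← Algebra.smul_def]
  refine Submodule.smul_mem _ _ (sub_mem ?_ ?_)
  · rw [Kum.mem_V, hmn]
    show (R.q * galF (p * M) W.σ ξ * H) ^ p * (K.f * R.f₀) ∈ _
    have h1 : galF (p * M) W.σ (ξ ^ p * K.f) ∈ HN M p (p * m) :=
      galF_mem_poles (p * M) (by rw [galF_upF, galF_jM]) hξ'
    have h2 : (R.q * galF (p * M) W.σ ξ) ^ p * (K.f * R.f₀) ∈ HN M p (p * m) := by
      rw [map_mul, map_pow, R.rel] at h1
      have h3 := Submodule.smul_mem (HN M p (p * m)) R.κ⁻¹ h1
      rw [Algebra.smul_def, map_inv₀] at h3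
      convert h3 using 1
      field_simp [(_root_.map_ne_zero (algebraMap QBar (FB (p * M)))).mpr R.κ_ne]
      ring
    rw [mul_pow _ H p, mul_right_comm]
    exact mul_mem_polesSpace h2 hHp
  · rw [Kum.mem_V, hmn, mul_pow]
    show ξ ^ p * u ^ p * (K.f * R.f₀) ∈ _
    rw [mul_mul_mul_comm]
    exact mul_mem_polesSpace hξ' (R.tame.mem_V.mp huV)

omit [FF.IsFunctionField (Res A) ↥(KM A M)] in
/-- An element of the space of `f₀` congruent to a power of `j - c` modulo `π ^ 2`. -/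
private theorem SigmaRel.exists_congr_jSub_pow (R : SigmaRel W K) (hA : A.LiesOverPrime p)
    (c n : ℕ) (hn : (Kum.one W.C₁ hpM).Im 0 n = R.tame.Im 0 n) :
    ∃ u ∈ R.tame.V n, ∀ s, ∃ w ∈ locS A, iota2 M p hpM s u =
      iota2 M p hpM s ((upF M p (jM M) - c) ^ n) +
        algebraMap QBar LSer (W.C.π ^ 2) * w := by
  have hHfix : ∀ τ : GQ, galF (p * M) τ ((upF M p (jM M) - c) ^ n) = (upF M p (jM M) - c) ^ n :=
    fun τ => by rw [map_pow, map_sub, galF_upF, galF_jM, map_natCast]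
  choose hHm hHr using exists_red_jSub_pow (A := A) (p := p) (M := M) (hpM := hpM) c n
  have hone : (fun s => redL A ⟨iota2 M p hpM s ((upF M p (jM M) - c) ^ n), hHm s⟩) ∈
      (Kum.one W.C₁ hpM).Im 0 n := by
    have hmem : (upF M p (jM M) - c) ^ n ∈ (Kum.one W.C₁ hpM).V n := by
      rw [Kum.mem_V]
      show ((upF M p (jM M) - c) ^ n) ^ p * 1 ∈ _
      rw [mul_one]
      exact jSub_pow_mem_HN c n
    have := (Kum.one W.C₁ hpM).red_mem_Im (k := 0) hmem fun s => by
      rw [tw_zero]; exact hHm s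
    convert this using 2 with s
    exact redL_congr _ _ (tw_zero _ _ _ _).symm
  rw [hn] at hone
  obtain ⟨u, huV, hufix, hum, hur⟩ := (R.tame.Im_spec hA 0 n).2.2 _ hone
  refine ⟨u, huV, fun s => ?_⟩
  have hus : iota2 M p hpM s u ∈ locS A := by rw [← tw_zero W.C₁]; exact hum s
  obtain ⟨w, hw, e⟩ := W.exists_eq_π_sq_mul hA (sub_mem hus (hHm s))
    (fun τ hτ => by rw [← map_sub, ← iota2_galF, map_sub, hufix τ hτ, hHfix])
    (by
      rw [show (⟨_, sub_mem hus (hHm s)⟩ : locS A) = ⟨_, hus⟩ - ⟨_, hHm s⟩ from rfl, map_sub,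
        redL_congr hus (hum s) (tw_zero _ _ _ _).symm, hur s, sub_self])
  exact ⟨w, hw, by rw [← e]; ring⟩

omit [FF.IsFunctionField (Res A) ↥(KM A M)] in
/-- The reduced spaces are stable under powers of `j - c`. -/
private theorem Kum.mul_jPair_mem_Im {C : CoefField A p} (K : Kum hpM C) (hA : A.LiesOverPrime p)
    {k : ℤ} {m : ℕ} {r : Fin 2 → LaurentSeries (Res A)} (hr : r ∈ K.Im k m) (c n : ℕ) :
    (fun s => r s * (jPair A p M c n s : LaurentSeries (Res A))) ∈ K.Im k (m + n) := by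
  choose hHm hHr using exists_red_jSub_pow (A := A) (p := p) (M := M) (hpM := hpM) c n
  obtain ⟨ξ, hξ, -, hξm, hξr⟩ := (K.Im_spec hA k m).2.2 r hr
  set H : FB (p * M) := (upF M p (jM M) - c) ^ n
  have htwmul : ∀ s : Fin 2, tw hpM C.π k (ξ * H) s = tw hpM C.π k ξ s * iota2 M p hpM s H :=
    fun s => by rw [tw_apply, tw_apply, map_mul, mul_assoc]
  have hmem : ξ * H ∈ K.V (m + n) := by
    rw [Kum.mem_V, mul_add, mul_pow, show ξ ^ p * H ^ p * K.f = ξ ^ p * K.f * H ^ p by ring]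
    exact mul_mem_polesSpace (K.mem_V.mp hξ) (jSub_pow_mem_HN c n)
  have := K.red_mem_Im hmem fun s => by rw [htwmul]; exact mul_mem (hξm s) (hHm s)
  convert this using 2 with s
  rw [redL_congr _ (mul_mem (hξm s) (hHm s)) (htwmul _),
    redL_mul' (hξm s) (hHm s), hξr, hHr]

omit [CharP (Res A) p] [FF.IsFunctionField (Res A) ↥(KM A M)] in
/-- The difference quotient of `ξ H` under the wild generator, to first order in `π`. -/
private theorem SigmaRel.tw_diff (R : SigmaRel W K) (k : ℕ) (hA : A.LiesOverPrime p)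
    {ξ H u : FB (p * M)} (hξf : ∀ τ ∈ W.C.H, galF (p * M) τ ξ = ξ) {s : Fin 2}
    (hξm : tw hpM W.C.π k ξ s ∈ locS A) (hHm : iota2 M p hpM s H ∈ locS A)
    {w : LSer} (hw : w ∈ locS A)
    (hu : iota2 M p hpM s u = iota2 M p hpM s H + algebraMap QBar LSer (W.C.π ^ 2) * w) :
    ∃ rest ∈ locS A,
      tw hpM W.C.π k (algebraMap QBar (FB (p * M)) W.C.π⁻¹ *
          (R.q * galF (p * M) W.σ ξ * H - ξ * u)) s =
        (R.y s + algebraMap QBar LSer ((if s = 0 then 0 else (k : QBar)) * (W.u : QBar))) *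
          (tw hpM W.C.π k ξ s * iota2 M p hpM s H) + algebraMap QBar LSer W.C.π * rest := by
  set α : LSer := algebraMap QBar LSer W.C.π with hα
  have hα0 : α ≠ 0 := (_root_.map_ne_zero _).mpr W.C.π_ne_zero
  have hαloc : α ∈ locS A := algebraMap_mem_locS (mem_of_mem_nonunits W.C.π_nonunit)
  obtain ⟨z, hz, e1⟩ := exists_σ_tw W hA k hξf hξm
  set β : LSer := algebraMap QBar LSer ((if s = 0 then 0 else (k : QBar)) * (W.u : QBar)) with hβ
  set X : LSer := tw hpM W.C.π k ξ s with hX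
  have hβm : β ∈ locS A := algebraMap_mem_locS (by
    refine mul_mem ?_ W.u.2
    split_ifs
    · exact zero_mem _
    · exact natCast_mem A k)
  refine ⟨R.y s * β * X * iota2 M p hpM s H + z * iota2 M p hpM s H +
    α * (R.y s * z * iota2 M p hpM s H) - X * w, ?_, ?_⟩
  · refine sub_mem (add_mem (add_mem ?_ ?_) ?_) (mul_mem hξm hw)
    · exact mul_mem (mul_mem (mul_mem (R.y_mem s) hβm) hξm) hHm
    · exact mul_mem hz hHm
    · exact mul_mem hαloc (mul_mem (mul_mem (R.y_mem s) hz) hHm)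
  rw [tw_apply, map_mul, map_sub, map_mul, map_mul, map_mul, AlgHom.commutes, map_inv₀,
    R.q_eq, hu, map_pow (algebraMap QBar LSer), ← hα]
  rw [tw_apply] at e1
  have e2 : algebraMap QBar LSer (tsc W.C.π k s) * iota2 M p hpM s ξ = X := rfl
  have eX : tw hpM W.C.π (↑k) ξ s = X := rfl
  field_simp
  linear_combination (1 + α * R.y s) * iota2 M p hpM s H * e1 -
    (iota2 M p hpM s H + α ^ 2 * w) * e2

/-! ## The stability of the reduced spaces -/

/-- The two elements of the reduced space one degree higher. -/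
theorem SigmaRel.exists_mul_mem (R : SigmaRel W K) (hA : A.LiesOverPrime p)
    (hM : (M : Res A) ≠ 0) (V : VUnit A hpM) (hV : V.Simple) (k : ℕ)
    (hk : 0 ≤ (p : ℤ) * k + K.δ) :
    ∃ n₀ : ℕ, ∀ n, n₀ ≤ n → ∀ (m : ℕ) (c : ℕ), ∀ r ∈ K.Im k m,
      (fun s => r s * (jPair A p M c n s : LaurentSeries (Res A))) ∈ K.Im k (m + n) ∧
      (fun s => (redL A ⟨_, R.y_mem s⟩ + algebraMap (Res A) (LaurentSeries (Res A))
          ((if s = 0 then 0 else (k : Res A)) * IsLocalRing.residue A W.u)) *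
          (r s * (jPair A p M c n s : LaurentSeries (Res A)))) ∈ K.Im k (m + n) := by
  classical
  obtain ⟨n₁, hn₁⟩ := (Kum.one W.C₁ hpM).exists_Im_congr V hA hM hV R.tame rfl rfl (k := 0)
    (by show (0 : ℤ) ≤ (p : ℤ) * 0 + 0; simp)
  obtain ⟨n₂, hn₂⟩ := K.exists_Im_congr V hA hM hV R.twist rfl rfl hk
  refine ⟨n₁ + n₂, fun n hn m c r hr => ⟨K.mul_jPair_mem_Im hA hr c n, ?_⟩⟩
  obtain ⟨u, huV, hu⟩ := R.exists_congr_jSub_pow hA c n (hn₁ n (by omega))
  choose w hw hu using hu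
  choose hHm hHr using exists_red_jSub_pow (A := A) (p := p) (M := M) (hpM := hpM) c n
  obtain ⟨ξ, hξ, hξf, hξm, hξr⟩ := (K.Im_spec hA k m).2.2 r hr
  set H : FB (p * M) := (upF M p (jM M) - c) ^ n
  -- the difference
  set φ : FB (p * M) := algebraMap QBar (FB (p * M)) W.C.π⁻¹ *
    (R.q * galF (p * M) W.σ ξ * H - ξ * u)
  have hφV : φ ∈ R.twist.V (m + n) := R.diff_mem_V (K.mem_V.mp hξ) (jSub_pow_mem_HN c n) huV
  set α : LSer := algebraMap QBar LSer W.C.π
  have hαloc : α ∈ locS A := algebraMap_mem_locS (mem_of_mem_nonunits W.C.π_nonunit)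
  choose rest hrestm etw using fun s => R.tw_diff k hA hξf (hξm s) (hHm s) (hw s) (hu s)
  have hβA : ∀ s : Fin 2, (if s = 0 then 0 else (k : QBar)) * (W.u : QBar) ∈ A := fun s => by
    refine mul_mem ?_ W.u.2
    split_ifs
    · exact zero_mem _
    · exact natCast_mem A k
  have hφm : ∀ s, tw hpM W.C.π k φ s ∈ locS A := fun s => by
    rw [etw]
    exact add_mem (mul_mem (add_mem (R.y_mem s) (algebraMap_mem_locS (hβA s)))
      (mul_mem (hξm s) (hHm s))) (mul_mem hαloc (hrestm s))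
  have := R.twist.red_mem_Im (k := (k : ℤ)) hφV hφm
  rw [← hn₂ (m + n) (by omega)] at this
  convert this using 2 with s
  have m1 := mul_mem (add_mem (R.y_mem s) (algebraMap_mem_locS (hβA s)))
    (mul_mem (hξm s) (hHm s))
  have m2 := mul_mem hαloc (hrestm s)
  rw [redL_congr (hφm s) (add_mem m1 m2) (etw s),
    show (⟨_, add_mem m1 m2⟩ : locS A) = ⟨_, m1⟩ + ⟨_, m2⟩ from rfl, map_add,
    redL_mul' hαloc (hrestm s), show redL A ⟨α, hαloc⟩ = 0 from
      (redL_algebraMap (mem_of_mem_nonunits W.C.π_nonunit)).trans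
        (by rw [(residue_eq_zero_iff _).mpr W.C.π_nonunit, map_zero]),
    zero_mul, add_zero,
    redL_mul' (add_mem (R.y_mem s) (algebraMap_mem_locS (hβA s))) (mul_mem (hξm s) (hHm s)),
    redL_mul' (hξm s) (hHm s),
    show (⟨_, add_mem (R.y_mem s) (algebraMap_mem_locS (hβA s))⟩ : locS A) =
      ⟨_, R.y_mem s⟩ + ⟨_, algebraMap_mem_locS (hβA s)⟩ from rfl, map_add,
    redL_algebraMap (hβA s), hξr, hHr]
  congr 3
  rw [show (⟨_, hβA s⟩ : A) = (if s = 0 then (0 : A) else (k : A)) * W.u from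
    Subtype.ext (by split_ifs <;> push_cast <;> rfl), map_mul]
  split_ifs <;> simp

end Fermat.Agent.RT.MazurP

end
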